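import Mathlib

/-!
# S17 (Mordell–Weil), heights half: from a GOOD SET to all points  (Mathlib only)

The curve side of Program MW proves the lower bound and the Northcott property of the
quasi-quadratic height `h` only on a *good set* `Gd` of classes (reduced, non-special
representatives), together with a FINITE translation set `T` such that every class `x` has some
`t ∈ T` with `x + t ∈ Gd`.  This file closes the logical gap between that and the hypotheses of
Mathlib's `AddCommGroup.fg_of_descent'`: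

* `mwgs_lower`       : `h x ≥ -C/2` for EVERY `x` (pigeonhole on `T` + second differences of
                       `k ↦ h (k • x + t)`; no canonical height, no Cauchy–Schwarz);
* `mwgs_translate_le`: `h (x + t) ≤ 2 h x + 2 h t + 3C/2`;
* `mwgs_northcott`   : Northcott on `Gd` implies Northcott everywhere;
* `mwgs_fg`          : the descent conclusion for a group `G`;
* `mwgs_fg_of_good`  : the same for a subgroup `G` of an ambient group `A` with `h : A → ℝ`
                       (the input shape of `Fermat.Agent.MW.mwfin_fg_of_subgroup`).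
-/

set_option autoImplicit false

namespace Fermat.Agent.MW

/-- A sequence whose second differences are bounded above by `δ` lies below the obvious
parabola. -/
theorem mwgs_seq_le (a : ℕ → ℝ) (δ : ℝ)
    (hrec : ∀ k, a (k + 2) - a (k + 1) ≤ (a (k + 1) - a k) + δ) (k : ℕ) :
    a (k + 1) - a k ≤ (a 1 - a 0) + k * δ ∧
      a k ≤ a 0 + k * (a 1 - a 0) + ((k : ℝ) * (k - 1) / 2) * δ := by
  induction k with
  | zero => constructor <;> simp
  | succ k ih =>
    obtain ⟨ih1, ih2⟩ := ih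
    constructor
    · have := hrec k
      push_cast
      linarith
    · push_cast
      have hk : a (k + 1) = a k + (a (k + 1) - a k) := by ring
      rw [hk]
      have e : ((k : ℝ) + 1) * ((k : ℝ) + 1 - 1) / 2 * δ
          = ((k : ℝ) * (k - 1) / 2) * δ + k * δ := by ring
      rw [e]
      linarith

/-- If the second differences are bounded above by a NEGATIVE constant, the sequence is
eventually below any given bound. -/
theorem mwgs_seq_eventually_lt (a : ℕ → ℝ) (δ : ℝ) (hδ : δ < 0)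
    (hrec : ∀ k, a (k + 2) - a (k + 1) ≤ (a (k + 1) - a k) + δ) (b : ℝ) :
    ∃ K : ℕ, ∀ k, K ≤ k → a k < b := by
  set d0 : ℝ := a 1 - a 0 with hd0
  -- choose K ≥ 1 with (K-1) * (-δ) / 2 ≥ d0 + 1 + |a 0 - b|
  obtain ⟨M, hM⟩ := exists_nat_ge ((2 * (d0 + 1 + |a 0 - b|)) / (-δ))
  refine ⟨M + 1, fun k hk => ?_⟩
  have hnegδ : 0 < -δ := by linarith
  have hk1 : (1 : ℝ) ≤ k := by
    have : 1 ≤ k := by omega
    exact_mod_cast this
  have hkM : (M : ℝ) ≤ (k : ℝ) - 1 := by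
    have : M + 1 ≤ k := hk
    have h' : ((M + 1 : ℕ) : ℝ) ≤ (k : ℝ) := by exact_mod_cast this
    push_cast at h'
    linarith
  have h1 : 2 * (d0 + 1 + |a 0 - b|) ≤ ((k : ℝ) - 1) * (-δ) := by
    have := (div_le_iff₀ hnegδ).mp (hM.trans hkM)
    linarith
  -- the bracket ((k-1) δ / 2 + d0) is ≤ -(1 + |a 0 - b|)
  have h2 : ((k : ℝ) - 1) * δ / 2 + d0 ≤ -(1 + |a 0 - b|) := by nlinarith
  have habs : 0 ≤ |a 0 - b| := abs_nonneg _
  have h3 : (k : ℝ) * (((k : ℝ) - 1) * δ / 2 + d0) ≤ -(1 + |a 0 - b|) := by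
    have hneg : ((k : ℝ) - 1) * δ / 2 + d0 ≤ 0 := by linarith
    have : (k : ℝ) * (((k : ℝ) - 1) * δ / 2 + d0) ≤ 1 * (((k : ℝ) - 1) * δ / 2 + d0) :=
      mul_le_mul_of_nonpos_right hk1 hneg
    linarith
  have h4 := (mwgs_seq_le a δ hrec k).2
  have e : a 0 + k * (a 1 - a 0) + ((k : ℝ) * (k - 1) / 2) * δ
      = a 0 + (k : ℝ) * (((k : ℝ) - 1) * δ / 2 + d0) := by rw [hd0]; ring
  rw [e] at h4
  have h5 : a 0 - b ≤ |a 0 - b| := le_abs_self _
  linarith

section Group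

variable {G : Type*} [AddCommGroup G]

/-- **Lower bound everywhere from a lower bound on a good set and a finite translation set.** -/
theorem mwgs_lower (h : G → ℝ) (C c₁ : ℝ)
    (hpar : ∀ x y, |h (x + y) + h (x - y) - 2 * (h x + h y)| ≤ C)
    (Gd T : Set G) (hT : T.Finite)
    (hlow : ∀ y ∈ Gd, -c₁ ≤ h y)
    (hcov : ∀ x, ∃ t ∈ T, x + t ∈ Gd) (x : G) :
    -C / 2 ≤ h x := by
  classical
  by_contra hcon
  rw [not_le] at hcon
  have hδ : 2 * h x + C < 0 := by linarith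
  -- choose, for every `k`, a translation `t_k ∈ T`
  choose f hfT hfG using fun k : ℕ => hcov (k • x)
  have : Finite T := hT
  obtain ⟨t, ht⟩ := Finite.exists_infinite_fiber (fun k : ℕ => (⟨f k, hfT k⟩ : T))
  have hinf : (( fun k : ℕ => (⟨f k, hfT k⟩ : T)) ⁻¹' {t}).Infinite := Set.infinite_coe_iff.mp ht
  set a : ℕ → ℝ := fun k => h (k • x + (t : G)) with ha
  have hrec : ∀ k, a (k + 2) - a (k + 1) ≤ (a (k + 1) - a k) + (2 * h x + C) := by
    intro k
    have hp := hpar ((k + 1) • x + (t : G)) x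
    have e1 : (k + 1) • x + (t : G) + x = (k + 2) • x + (t : G) := by
      rw [add_nsmul, add_nsmul, one_nsmul, two_nsmul]; abel
    have e2 : (k + 1) • x + (t : G) - x = k • x + (t : G) := by
      rw [add_nsmul, one_nsmul]; abel
    rw [e1, e2] at hp
    have := (abs_le.mp hp).2
    simp only [ha]
    linarith
  obtain ⟨K, hK⟩ := mwgs_seq_eventually_lt a (2 * h x + C) hδ hrec (-c₁)
  obtain ⟨k, hk, hKk⟩ := hinf.exists_gt K
  have hfk : f k = (t : G) := by
    have : (⟨f k, hfT k⟩ : T) = t := hk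
    exact congrArg Subtype.val this
  have h1 : -c₁ ≤ h (k • x + (t : G)) := by
    have := hlow _ (hfG k)
    rwa [hfk] at this
  have h2 : a k < -c₁ := hK k hKk.le
  simp only [ha] at h2
  linarith

/-- Translation inequality once `h` is bounded below by `-C/2`. -/
theorem mwgs_translate_le (h : G → ℝ) (C : ℝ)
    (hpar : ∀ x y, |h (x + y) + h (x - y) - 2 * (h x + h y)| ≤ C)
    (hlb : ∀ x, -C / 2 ≤ h x) (x t : G) :
    h (x + t) ≤ 2 * h x + 2 * h t + 3 * C / 2 := by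
  have hp := (abs_le.mp (hpar x t)).2
  have := hlb (x - t)
  linarith

/-- **Northcott everywhere from Northcott on the good set.** -/
theorem mwgs_northcott (h : G → ℝ) (C c₁ : ℝ)
    (hpar : ∀ x y, |h (x + y) + h (x - y) - 2 * (h x + h y)| ≤ C)
    (Gd T : Set G) (hT : T.Finite)
    (hlow : ∀ y ∈ Gd, -c₁ ≤ h y)
    (hcov : ∀ x, ∃ t ∈ T, x + t ∈ Gd)
    (hN : ∀ B : ℝ, {y | y ∈ Gd ∧ h y ≤ B}.Finite) (B : ℝ) :
    {x | h x ≤ B}.Finite := by
  classical
  have hlb := mwgs_lower h C c₁ hpar Gd T hT hlow hcov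
  -- a bound for `h` on `T`
  obtain ⟨M, hM⟩ : ∃ M : ℝ, ∀ t ∈ T, h t ≤ M := by
    rcases T.eq_empty_or_nonempty with hE | hne
    · exact ⟨0, fun t ht => by simp [hE] at ht⟩
    · obtain ⟨t₀, ht₀, hmax⟩ := Set.exists_max_image T h hT hne
      exact ⟨h t₀, hmax⟩
  set B' : ℝ := 2 * B + 2 * M + 3 * C / 2 with hB'
  have hfin : (⋃ t ∈ T, (fun y => y - t) '' {y | y ∈ Gd ∧ h y ≤ B'}).Finite :=
    hT.biUnion fun t _ => (hN B').image _
  refine hfin.subset fun x hx => ?_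
  obtain ⟨t, htT, hxt⟩ := hcov x
  refine Set.mem_biUnion htT ⟨x + t, ⟨hxt, ?_⟩, add_sub_cancel_right x t⟩
  have h1 := mwgs_translate_le h C hpar hlb x t
  have h2 := hM t htT
  have hx' : h x ≤ B := hx
  rw [hB']
  linarith

/-- **Descent from good-set data** (group form). -/
theorem mwgs_fg (h : G → ℝ) (C c₁ : ℝ)
    (hpar : ∀ x y, |h (x + y) + h (x - y) - 2 * (h x + h y)| ≤ C)
    (Gd T : Set G) (hT : T.Finite)
    (hlow : ∀ y ∈ Gd, -c₁ ≤ h y)
    (hcov : ∀ x, ∃ t ∈ T, x + t ∈ Gd)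
    (hN : ∀ B : ℝ, {y | y ∈ Gd ∧ h y ≤ B}.Finite)
    (hweak : (nsmulAddMonoidHom (α := G) 2).range.FiniteIndex) :
    AddGroup.FG G := by
  have hlb := mwgs_lower h C c₁ hpar Gd T hT hlow hcov
  set h' : G → ℝ := fun x => h x + C / 2 with hh'
  have hN' : Northcott h' := by
    refine ⟨fun B => ?_⟩
    refine (mwgs_northcott h C c₁ hpar Gd T hT hlow hcov hN (B - C / 2)).subset fun x hx => ?_
    have : h x + C / 2 ≤ B := hx
    show h x ≤ B - C / 2
    linarith
  have hC0 : 0 ≤ C := (abs_nonneg _).trans (hpar 0 0)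
  refine AddCommGroup.fg_of_descent' (h := h') (C := 2 * C) hweak (fun x => ?_) (fun x y => ?_)
  · have := hlb x
    show 0 ≤ h x + C / 2
    linarith
  · have hp := abs_le.mp (hpar x y)
    show |h (x + y) + C / 2 + (h (x - y) + C / 2) - 2 * (h x + C / 2 + (h y + C / 2))| ≤ 2 * C
    rw [abs_le]
    constructor <;> linarith [hp.1, hp.2]

end Group

/-- **Descent from good-set data, ambient form**: `G` a subgroup of `A`, `h : A → ℝ`; the
parallelogram law, the lower bound and Northcott are only required for elements of `G`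
(resp. of `G ∩ Gd`), and the finite translation set lies in `G`. -/
theorem mwgs_fg_of_good {A : Type*} [AddCommGroup A] (G : AddSubgroup A) (h : A → ℝ) (C c₁ : ℝ)
    (Gd T : Set A) (hT : T.Finite) (hTG : T ⊆ (G : Set A))
    (hpar : ∀ x ∈ G, ∀ y ∈ G, |h (x + y) + h (x - y) - 2 * (h x + h y)| ≤ C)
    (hlow : ∀ y ∈ G, y ∈ Gd → -c₁ ≤ h y)
    (hcov : ∀ x ∈ G, ∃ t ∈ T, x + t ∈ Gd)
    (hN : ∀ B : ℝ, {y | y ∈ G ∧ y ∈ Gd ∧ h y ≤ B}.Finite)
    (hweak : (nsmulAddMonoidHom (α := G) 2).range.FiniteIndex) :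
    AddGroup.FG G := by
  classical
  refine mwgs_fg (G := G) (fun x => h (x : A)) C c₁ (fun x y => hpar x x.2 y y.2)
    {y : G | (y : A) ∈ Gd} {t : G | (t : A) ∈ T} ?_ (fun y hy => hlow y y.2 hy) (fun x => ?_)
    (fun B => ?_) hweak
  · exact Set.Finite.of_injOn (f := fun t : G => (t : A)) (t := T) (fun t ht => ht)
      (fun a _ b _ hab => Subtype.ext hab) hT
  · obtain ⟨t, htT, hxt⟩ := hcov x x.2
    exact ⟨⟨t, hTG htT⟩, htT, hxt⟩
  · exact Set.Finite.of_injOn (f := fun t : G => (t : A))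
      (t := {y | y ∈ G ∧ y ∈ Gd ∧ h y ≤ B}) (fun t ht => ⟨t.2, ht.1, ht.2⟩)
      (fun a _ b _ hab => Subtype.ext hab) (hN B)

/-- Ambient form of `mwgs_lower`. -/
theorem mwgs_lower_ambient {A : Type*} [AddCommGroup A] (G : AddSubgroup A) (h : A → ℝ)
    (C c₁ : ℝ) (Gd T : Set A) (hT : T.Finite) (hTG : T ⊆ (G : Set A))
    (hpar : ∀ x ∈ G, ∀ y ∈ G, |h (x + y) + h (x - y) - 2 * (h x + h y)| ≤ C)
    (hlow : ∀ y ∈ G, y ∈ Gd → -c₁ ≤ h y)
    (hcov : ∀ x ∈ G, ∃ t ∈ T, x + t ∈ Gd) (x : A) (hx : x ∈ G) :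
    -C / 2 ≤ h x := by
  classical
  refine mwgs_lower (G := G) (fun x => h (x : A)) C c₁ (fun x y => hpar x x.2 y y.2)
    {y : G | (y : A) ∈ Gd} {t : G | (t : A) ∈ T} ?_ (fun y hy => hlow y y.2 hy) (fun x => ?_)
    ⟨x, hx⟩
  · exact Set.Finite.of_injOn (f := fun t : G => (t : A)) (t := T) (fun t ht => ht)
      (fun a _ b _ hab => Subtype.ext hab) hT
  · obtain ⟨t, htT, hxt⟩ := hcov x x.2
    exact ⟨⟨t, hTG htT⟩, htT, hxt⟩

/-- Ambient form of `mwgs_northcott`. -/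
theorem mwgs_northcott_ambient {A : Type*} [AddCommGroup A] (G : AddSubgroup A) (h : A → ℝ)
    (C c₁ : ℝ) (Gd T : Set A) (hT : T.Finite) (hTG : T ⊆ (G : Set A))
    (hpar : ∀ x ∈ G, ∀ y ∈ G, |h (x + y) + h (x - y) - 2 * (h x + h y)| ≤ C)
    (hlow : ∀ y ∈ G, y ∈ Gd → -c₁ ≤ h y)
    (hcov : ∀ x ∈ G, ∃ t ∈ T, x + t ∈ Gd)
    (hN : ∀ B : ℝ, {y | y ∈ G ∧ y ∈ Gd ∧ h y ≤ B}.Finite) (B : ℝ) :
    {x | x ∈ G ∧ h x ≤ B}.Finite := by
  classical
  have key := mwgs_northcott (G := G) (fun x => h (x : A)) C c₁ (fun x y => hpar x x.2 y y.2)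
    {y : G | (y : A) ∈ Gd} {t : G | (t : A) ∈ T}
    (Set.Finite.of_injOn (f := fun t : G => (t : A)) (t := T) (fun t ht => ht)
      (fun a _ b _ hab => Subtype.ext hab) hT)
    (fun y hy => hlow y y.2 hy)
    (fun x => by
      obtain ⟨t, htT, hxt⟩ := hcov x x.2
      exact ⟨⟨t, hTG htT⟩, htT, hxt⟩)
    (fun B => Set.Finite.of_injOn (f := fun t : G => (t : A))
      (t := {y | y ∈ G ∧ y ∈ Gd ∧ h y ≤ B}) (fun t ht => ⟨t.2, ht.1, ht.2⟩)
      (fun a _ b _ hab => Subtype.ext hab) (hN B)) B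
  have himg : {x | x ∈ G ∧ h x ≤ B} ⊆ (fun t : G => (t : A)) '' {x : G | h (x : A) ≤ B} := by
    rintro x ⟨hxG, hxB⟩
    exact ⟨⟨x, hxG⟩, hxB, rfl⟩
  exact (key.image _).subset himg

/-- **Interface adapter**: good-set data on a subgroup `G ≤ A` produce a height `h'` on `A`
which on `G` is non-negative, satisfies the approximate parallelogram law and is Northcott:
exactly the three properties `[H]` consumed by `Fermat.Agent.MW.mwfin_final` and by the
weak-MW assembly. -/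
theorem mwgs_height_of_good {A : Type*} [AddCommGroup A] (G : AddSubgroup A) (h : A → ℝ)
    (C c₁ : ℝ) (Gd T : Set A) (hT : T.Finite) (hTG : T ⊆ (G : Set A))
    (hpar : ∀ x ∈ G, ∀ y ∈ G, |h (x + y) + h (x - y) - 2 * (h x + h y)| ≤ C)
    (hlow : ∀ y ∈ G, y ∈ Gd → -c₁ ≤ h y)
    (hcov : ∀ x ∈ G, ∃ t ∈ T, x + t ∈ Gd)
    (hN : ∀ B : ℝ, {y | y ∈ G ∧ y ∈ Gd ∧ h y ≤ B}.Finite) :
    ∃ (h' : A → ℝ) (C' : ℝ),
      (∀ x ∈ G, 0 ≤ h' x) ∧
      (∀ x ∈ G, ∀ y ∈ G, |h' (x + y) + h' (x - y) - 2 * (h' x + h' y)| ≤ C') ∧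
      (∀ B : ℝ, {x | x ∈ G ∧ h' x ≤ B}.Finite) := by
  refine ⟨fun x => h x + C / 2, 2 * C, fun x hx => ?_, fun x hx y hy => ?_, fun B => ?_⟩
  · have := mwgs_lower_ambient G h C c₁ Gd T hT hTG hpar hlow hcov x hx
    show 0 ≤ h x + C / 2
    linarith
  · have hp := abs_le.mp (hpar x hx y hy)
    have hC0 : 0 ≤ C := (abs_nonneg _).trans (hpar x hx y hy)
    show |h (x + y) + C / 2 + (h (x - y) + C / 2) - 2 * (h x + C / 2 + (h y + C / 2))| ≤ 2 * C
    rw [abs_le]
    constructor <;> linarith [hp.1, hp.2]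
  · refine (mwgs_northcott_ambient G h C c₁ Gd T hT hTG hpar hlow hcov hN (B - C / 2)).subset
      fun x hx => ⟨hx.1, ?_⟩
    have : h x + C / 2 ≤ B := hx.2
    linarith

end Fermat.Agent.MW
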