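import Fermat.Agent.MW.Weak
import Fermat.Agent.MW.GoodSet
import Fermat.Agent.MW.GT.Cover

/-!
# Program MW (S17): the TOP ASSEMBLY in good-set shape (prefix `mwas_`)

Owner: helper2 (final assembly).

`mwas_main` : the frozen S17 conclusion from the THREE outputs of the height half (A):

* `hpar`  : the approximate parallelogram law for `h` on all of `J₀(N)(ℚ̄)`;
* `hlow`  : a lower bound for `h` on the good classes `mwgtGood N P0 Sig` (helper27's literal:
  `[E − g·P0]`, `E` reduced effective of degree `g`, `l(E) = 1`, off `P0` and off `Sig`);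
* `hN`    : Northcott on the good classes of `J₀(N)(K)`, for every number field `K ⊆ ℚ̄`.

Everything else is on branches: weak Mordell–Weil (`mwwk_exists`, this half), helper27's finite
translation set (`mwgt_cover_fixedPoints`), helper11's good-set descent (`mwgs_fg_of_good`),
helper17's passage to `G_ℚ`-invariants (`mwfin_fg_of_subgroup`).
-/

set_option autoImplicit false

open ModularCurve AlgebraicCurve

namespace Fermat.Agent.MW

/-- **S17 from the three outputs of the height half, good-set shape.** -/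
theorem mwas_main (N : ℕ) [NeZero N]
    (P0 : Place (AlgebraicClosure ℚ) ↥(modularFunctionFieldBar N))
    (Sig : Finset (Place (AlgebraicClosure ℚ) ↥(modularFunctionFieldBar N)))
    (h : JZero N → ℝ) (C c₁ : ℝ)
    (hpar : ∀ x y : JZero N, |h (x + y) + h (x - y) - 2 * (h x + h y)| ≤ C)
    (hlow : ∀ y ∈ mwgtGood N P0 Sig, -c₁ ≤ h y)
    (hN : ∀ K : IntermediateField ℚ (AlgebraicClosure ℚ), FiniteDimensional ℚ K → ∀ B : ℝ,
      {y | y ∈ FixedPoints.addSubgroup ↥K.fixingSubgroup (JZero N) ∧
        y ∈ mwgtGood N P0 Sig ∧ h y ≤ B}.Finite) :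
    AddGroup.FG ↥(FixedPoints.addSubgroup
      ((AlgebraicClosure ℚ) ≃ₐ[ℚ] (AlgebraicClosure ℚ)) (JZero N)) := by
  obtain ⟨K₁, hK₁, hweak⟩ := mwwk_exists N
  haveI := hK₁
  obtain ⟨K, hle, hK, T, hT, hTG, hcov⟩ := mwgt_cover_fixedPoints N P0 Sig K₁
  refine mwfin_fg_of_subgroup K.fixingSubgroup ?_
  exact mwgs_fg_of_good (FixedPoints.addSubgroup ↥K.fixingSubgroup (JZero N)) h C c₁
    (mwgtGood N P0 Sig) T hT hTG (fun x _ y _ => hpar x y) (fun y _ hy => hlow y hy)
    (fun x _ => hcov x) (hN K hK) (hweak K hle hK)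

end Fermat.Agent.MW
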