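import Fermat.Prelude.Def_ModularCurve_ArithmeticGalois
import Mathlib.Algebra.Ring.Action.Submonoid
import Mathlib.GroupTheory.Descent
import Mathlib.RingTheory.Noetherian.Basic
import Mathlib.GroupTheory.Finiteness

/-!
# S17, final step: from (height + weak Mordell–Weil) over ONE finite extension to the frozen type

Everything here is soft.  The file fixes the two INPUT SHAPES that the S17 programme has to
produce, and turns them into the frozen statement
`AddGroup.FG ↥(FixedPoints.addSubgroup (ℚ̄ ≃ₐ[ℚ] ℚ̄) (JZero N))`: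

* `[H]`  a function `h : JZero N → ℝ` (defined on all of `J(ℚ̄)`; only its values on
  `G := J(ℚ̄)^U` matter) which on `G` is non-negative, satisfies the approximate parallelogram
  law with a constant `C`, and has the Northcott property;
* `[W]`  weak Mordell–Weil for `G`, in any of three shapes:
  `mwfin_W1` finite index of `2 • G`, `mwfin_W2` a finite set of coset representatives,
  `mwfin_W3` a "Kummer map" `κ : G →+ M` with finite range and `ker κ ≤ 2 • G`.

`U` is ANY subgroup of `Gal(ℚ̄/ℚ)` – in practice `K'.fixingSubgroup` for a number field `K'`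
chosen as large as convenient.
-/

set_option autoImplicit false
open ModularCurve AlgebraicCurve

namespace Fermat.Agent.MW

/-! ### Subgroups of finitely generated abelian groups -/

/-- A subgroup of a finitely generated commutative additive group is finitely generated
(stated for two nested subgroups of an ambient group). -/
theorem mwfin_fg_of_le {A : Type*} [AddCommGroup A] {H K : AddSubgroup A} (hHK : H ≤ K)
    (hK : AddGroup.FG K) : AddGroup.FG H := by
  classical
  have hKfg : Module.Finite ℤ K := Module.Finite.iff_addGroup_fg.mpr hK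
  have hnoeth : IsNoetherian ℤ K := isNoetherian_of_isNoetherianRing_of_finite ℤ K
  let ι : H →+ K := AddSubgroup.inclusion hHK
  have hι : Function.Injective ι := AddSubgroup.inclusion_injective hHK
  have hfin : Module.Finite ℤ H := Module.Finite.of_injective ι.toIntLinearMap hι
  exact Module.Finite.iff_addGroup_fg.mp hfin

/-- Fixed points of the whole group are fixed by every subgroup. -/
theorem mwfin_fixedPoints_le {Γ A : Type*} [Group Γ] [AddCommGroup A] [DistribMulAction Γ A]
    (U : Subgroup Γ) :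
    FixedPoints.addSubgroup Γ A ≤ FixedPoints.addSubgroup U A := by
  intro x hx
  rw [FixedPoints.mem_addSubgroup] at hx ⊢
  intro m
  exact hx (m : Γ)

/-- Finite generation of the points fixed by a subgroup `U` implies finite generation of the
points fixed by the whole group. -/
theorem mwfin_fg_of_subgroup {Γ A : Type*} [Group Γ] [AddCommGroup A] [DistribMulAction Γ A]
    (U : Subgroup Γ) (hU : AddGroup.FG (FixedPoints.addSubgroup U A)) :
    AddGroup.FG (FixedPoints.addSubgroup Γ A) :=
  mwfin_fg_of_le (mwfin_fixedPoints_le U) hU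

/-! ### The three shapes of weak Mordell–Weil -/

/-- `[W2] ⟹ [W1]`: a finite set of representatives for `G / 2G`. -/
theorem mwfin_W1_of_W2 {A : Type*} [AddCommGroup A] (G : AddSubgroup A) (m : ℕ) (S : Set A)
    (hS : S.Finite) (hrep : ∀ x ∈ G, ∃ s ∈ S, ∃ y ∈ G, x = s + m • y) :
    (nsmulAddMonoidHom (α := G) m).range.FiniteIndex := by
  classical
  set R : AddSubgroup G := (nsmulAddMonoidHom (α := G) m).range with hR
  -- the finite set of representatives lying in `G`
  let T : Set G := {t | (t : A) ∈ S}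
  have hT : T.Finite := by
    refine Set.Finite.of_injOn (f := fun t : G => (t : A)) (t := S) ?_ ?_ hS
    · intro t ht; exact ht
    · intro a _ b _ hab; exact Subtype.ext hab
  have hfin : Finite T := hT
  have hsurj : Function.Surjective (fun t : T => (QuotientAddGroup.mk (t : G) : G ⧸ R)) := by
    intro q
    obtain ⟨x, rfl⟩ := QuotientAddGroup.mk_surjective q
    obtain ⟨s, hsS, y, hyG, hxy⟩ := hrep x x.2
    have hsG : s ∈ G := by
      have : s = x - m • y := by rw [hxy]; abel
      rw [this]
      exact G.sub_mem x.2 (G.nsmul_mem hyG m)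
    refine ⟨⟨⟨s, hsG⟩, hsS⟩, ?_⟩
    show (QuotientAddGroup.mk (⟨s, hsG⟩ : G) : G ⧸ R) = QuotientAddGroup.mk x
    rw [QuotientAddGroup.eq]
    refine ⟨⟨y, hyG⟩, ?_⟩
    apply Subtype.ext
    simp only [nsmulAddMonoidHom_apply, AddSubgroup.coe_add, AddSubgroup.coe_neg,
      AddSubgroup.coe_nsmul]
    rw [hxy]; abel
  have : Finite (G ⧸ R) := Finite.of_surjective _ hsurj
  exact AddSubgroup.finiteIndex_of_finite_quotient

/-- `[W3] ⟹ [W1]`: a homomorphism with finite range whose kernel consists of multiples of `m`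
(a "Kummer map"). -/
theorem mwfin_W1_of_W3 {G M : Type*} [AddCommGroup G] [AddCommGroup M] (m : ℕ) (κ : G →+ M)
    (hfin : (Set.range κ).Finite) (hker : ∀ x, κ x = 0 → ∃ y, x = m • y) :
    (nsmulAddMonoidHom (α := G) m).range.FiniteIndex := by
  classical
  have hr : Finite κ.range := by
    have : Finite (Set.range κ) := hfin
    exact this
  have hk : κ.ker.FiniteIndex := inferInstance
  refine AddSubgroup.finiteIndex_of_le (H := κ.ker) ?_
  intro x hx
  obtain ⟨y, hy⟩ := hker x hx
  exact ⟨y, by simpa using hy.symm⟩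

/-! ### Descent with the height defined on an ambient group -/

/-- Descent: a subgroup `G` of an ambient commutative group `A`, a real function `h` on `A` which
on `G` is non-negative, approximately quadratic and Northcott, and weak Mordell–Weil for `G`. -/
theorem mwfin_fg_of_ambient_height {A : Type*} [AddCommGroup A] (G : AddSubgroup A)
    (h : A → ℝ) (C : ℝ)
    (h0 : ∀ x ∈ G, 0 ≤ h x)
    (hpar : ∀ x ∈ G, ∀ y ∈ G, |h (x + y) + h (x - y) - 2 * (h x + h y)| ≤ C)
    (hNorth : ∀ B : ℝ, {x | x ∈ G ∧ h x ≤ B}.Finite)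
    (hweak : (nsmulAddMonoidHom (α := G) 2).range.FiniteIndex) :
    AddGroup.FG G := by
  classical
  let hG : G → ℝ := fun x => h (x : A)
  have hN : Northcott hG := by
    refine ⟨fun B => ?_⟩
    refine Set.Finite.of_injOn (f := fun t : G => (t : A)) (t := {x | x ∈ G ∧ h x ≤ B}) ?_ ?_
      (hNorth B)
    · intro t ht; exact ⟨t.2, ht⟩
    · intro a _ b _ hab; exact Subtype.ext hab
  exact AddCommGroup.fg_of_descent' (h := hG) (C := C) hweak (fun x => h0 x x.2)
    (fun x y => hpar x x.2 y y.2)

/-! ### The frozen S17 type -/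

/-- **Final step of S17.**  Let `U` be any subgroup of `Gal(ℚ̄/ℚ)` (think `K'.fixingSubgroup`),
`G = J₀(N)(ℚ̄)^U`.  Given `[H]` a height on `G` and `[W]` weak Mordell–Weil for `G`, the group
`J₀(N)(ℚ) = J₀(N)(ℚ̄)^{Gal(ℚ̄/ℚ)}` is finitely generated. -/
theorem mwfin_final (N : ℕ)
    (U : Subgroup ((AlgebraicClosure ℚ) ≃ₐ[ℚ] (AlgebraicClosure ℚ)))
    (h : JZero N → ℝ) (C : ℝ)
    (h0 : ∀ x ∈ FixedPoints.addSubgroup U (JZero N), 0 ≤ h x)
    (hpar : ∀ x ∈ FixedPoints.addSubgroup U (JZero N),
      ∀ y ∈ FixedPoints.addSubgroup U (JZero N),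
        |h (x + y) + h (x - y) - 2 * (h x + h y)| ≤ C)
    (hNorth : ∀ B : ℝ, {x | x ∈ FixedPoints.addSubgroup U (JZero N) ∧ h x ≤ B}.Finite)
    (hweak : (nsmulAddMonoidHom
      (α := ↥(FixedPoints.addSubgroup U (JZero N))) 2).range.FiniteIndex) :
    AddGroup.FG ↥(FixedPoints.addSubgroup
      ((AlgebraicClosure ℚ) ≃ₐ[ℚ] (AlgebraicClosure ℚ)) (JZero N)) :=
  mwfin_fg_of_subgroup U
    (mwfin_fg_of_ambient_height (FixedPoints.addSubgroup U (JZero N)) h C h0 hpar hNorth hweak)

/-- Variant of `mwfin_final` with weak Mordell–Weil given by a finite set of representatives. -/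
theorem mwfin_final' (N : ℕ)
    (U : Subgroup ((AlgebraicClosure ℚ) ≃ₐ[ℚ] (AlgebraicClosure ℚ)))
    (h : JZero N → ℝ) (C : ℝ)
    (h0 : ∀ x ∈ FixedPoints.addSubgroup U (JZero N), 0 ≤ h x)
    (hpar : ∀ x ∈ FixedPoints.addSubgroup U (JZero N),
      ∀ y ∈ FixedPoints.addSubgroup U (JZero N),
        |h (x + y) + h (x - y) - 2 * (h x + h y)| ≤ C)
    (hNorth : ∀ B : ℝ, {x | x ∈ FixedPoints.addSubgroup U (JZero N) ∧ h x ≤ B}.Finite)
    (S : Set (JZero N)) (hS : S.Finite)
    (hrep : ∀ x ∈ FixedPoints.addSubgroup U (JZero N),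
      ∃ s ∈ S, ∃ y ∈ FixedPoints.addSubgroup U (JZero N), x = s + 2 • y) :
    AddGroup.FG ↥(FixedPoints.addSubgroup
      ((AlgebraicClosure ℚ) ≃ₐ[ℚ] (AlgebraicClosure ℚ)) (JZero N)) :=
  mwfin_final N U h C h0 hpar hNorth (mwfin_W1_of_W2 _ 2 S hS hrep)

end Fermat.Agent.MW
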