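import Mathlib

/-!
# Finiteness of the Selmer groups `K⟮S, n⟯` of a number field

Owner: helper14.  Prefix `mwks_`.  Mathlib only.

Mathlib defines `IsDedekindDomain.selmerGroup` (`K⟮S, n⟯ = {x ∈ Kˣ/(Kˣ)ⁿ | ∀ v ∉ S, n ∣ ord_v x}`)
and leaves its finiteness for global fields as a TODO.  We prove it: for a Dedekind domain `R`
with finite class group and finitely generated unit group, `K⟮S, n⟯` is finite for finite `S`
and `0 < n`; in particular for the ring of integers of a number field.
-/

set_option autoImplicit false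
set_option linter.style.haveILetI false
set_option linter.unusedSectionVars false

namespace Fermat.Agent.MW

open IsDedekindDomain IsDedekindDomain.HeightOneSpectrum FractionalIdeal
open scoped nonZeroDivisors

variable {R : Type*} [CommRing R] [IsDedekindDomain R] {K : Type*} [Field K] [Algebra R K]
  [IsFractionRing R K]

/-- A nonzero fractional ideal is determined by its `v`-adic counts. -/
theorem mwks_eq_of_count_eq {I J : FractionalIdeal R⁰ K} (hI : I ≠ 0) (hJ : J ≠ 0)
    (h : ∀ v : HeightOneSpectrum R, count K v I = count K v J) : I = J := by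
  rw [← finprod_heightOneSpectrum_factorization' K hI,
    ← finprod_heightOneSpectrum_factorization' K hJ]
  exact finprod_congr fun v => by rw [h v]

/-- A fractional ideal all of whose counts are divisible by `n` is an `n`-th power. -/
theorem mwks_exists_root (n : ℕ) (I : (FractionalIdeal R⁰ K)ˣ)
    (h : ∀ v : HeightOneSpectrum R, (n : ℤ) ∣ count K v (I : FractionalIdeal R⁰ K)) :
    ∃ J : (FractionalIdeal R⁰ K)ˣ, J ^ n = I := by
  classical
  set e : HeightOneSpectrum R → ℤ := fun v => count K v (I : FractionalIdeal R⁰ K) / n with he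
  have hfin : ∀ᶠ v : HeightOneSpectrum R in Filter.cofinite, e v = 0 := by
    refine (finite_factors (I : FractionalIdeal R⁰ K)).mono fun v hv => ?_
    simp only [he, hv, Int.zero_ediv]
  set J₀ : FractionalIdeal R⁰ K :=
    ∏ᶠ v : HeightOneSpectrum R, (v.asIdeal : FractionalIdeal R⁰ K) ^ e v with hJ₀def
  have hJ₀ : J₀ ≠ 0 :=
    finprod_induction (· ≠ 0) one_ne_zero (fun _ _ => mul_ne_zero)
      (fun v => zpow_ne_zero _ (coeIdeal_ne_zero.mpr v.ne_bot))
  have hcount : ∀ v : HeightOneSpectrum R,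
      count K v (J₀ ^ n) = count K v (I : FractionalIdeal R⁰ K) := by
    intro v
    rw [count_pow, hJ₀def, count_finprod K v e hfin]
    exact Int.mul_ediv_cancel' (h v)
  refine ⟨Units.mk0 J₀ hJ₀, Units.ext ?_⟩
  rw [Units.val_pow_eq_pow_val, Units.val_mk0]
  exact mwks_eq_of_count_eq (pow_ne_zero _ hJ₀) I.ne_zero hcount

/-- The count of a principal fractional ideal is minus the additive valuation. -/
theorem mwks_count_spanSingleton (v : HeightOneSpectrum R) (x : Kˣ) :
    count K v (spanSingleton R⁰ (x : K)) = - Multiplicative.toAdd (v.valuationOfNeZero x) := by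
  classical
  have hx := IsLocalization.sec_spec R⁰ (x : K)
  have hb : algebraMap R K ((IsLocalization.sec R⁰ (x : K)).2 : R) ≠ 0 :=
    map_ne_zero_of_mem_nonZeroDivisors _ (IsFractionRing.injective R K)
      (IsLocalization.sec R⁰ (x : K)).2.property
  have hI : spanSingleton R⁰ (x : K) =
      spanSingleton R⁰ ((algebraMap R K) ((IsLocalization.sec R⁰ (x : K)).2 : R))⁻¹ *
        ↑(Ideal.span {(IsLocalization.sec R⁰ (x : K)).1} : Ideal R) := by
    rw [coeIdeal_span_singleton, spanSingleton_mul_spanSingleton]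
    congr 1
    rw [← hx]
    field_simp
  rw [count_well_defined K v (spanSingleton_ne_zero_iff.mpr x.ne_zero) hI]
  show _ = - Multiplicative.toAdd (v.valuationOfNeZeroToFun x)
  unfold valuationOfNeZeroToFun
  simp only [toAdd_ofAdd]
  ring

/-- The `n`-valuation of a class is trivial iff `n` divides the valuation of a representative. -/
theorem mwks_valMod_eq_one_iff (v : HeightOneSpectrum R) (n : ℕ) (x : Kˣ) :
    v.valuationOfNeZeroMod n
        (QuotientGroup.mk x : Kˣ ⧸ (powMonoidHom n : Kˣ →* Kˣ).range) = 1 ↔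
      (n : ℤ) ∣ Multiplicative.toAdd (v.valuationOfNeZero (K := K) x) := by
  unfold valuationOfNeZeroMod
  rw [MonoidHom.comp_apply, MulEquiv.coe_toMonoidHom, MulEquiv.map_eq_one_iff]
  erw [QuotientGroup.map_mk, QuotientGroup.eq_one_iff]
  show Multiplicative.toAdd (v.valuationOfNeZero (K := K) x) ∈ AddSubgroup.zmultiples (n : ℤ) ↔ _
  rw [Int.mem_zmultiples_iff]

/-- Every element of `K⟮∅, n⟯` has a representative whose principal ideal is an `n`-th power. -/
theorem mwks_exists_data (n : ℕ) (y : Kˣ ⧸ (powMonoidHom n : Kˣ →* Kˣ).range)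
    (hy : y ∈ selmerGroup (R := R) (K := K) (S := (∅ : Set (HeightOneSpectrum R))) (n := n)) :
    ∃ (x : Kˣ) (J : (FractionalIdeal R⁰ K)ˣ),
      (QuotientGroup.mk x : Kˣ ⧸ (powMonoidHom n : Kˣ →* Kˣ).range) = y ∧
        J ^ n = toPrincipalIdeal R K x := by
  obtain ⟨x, rfl⟩ := QuotientGroup.mk_surjective y
  have hdiv : ∀ v : HeightOneSpectrum R, (n : ℤ) ∣
      count K v ((toPrincipalIdeal R K x : (FractionalIdeal R⁰ K)ˣ) : FractionalIdeal R⁰ K) := by
    intro v
    rw [coe_toPrincipalIdeal, mwks_count_spanSingleton, dvd_neg]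
    exact (mwks_valMod_eq_one_iff v n x).mp (hy v (Set.notMem_empty v))
  obtain ⟨J, hJ⟩ := mwks_exists_root n _ hdiv
  exact ⟨x, J, rfl, hJ⟩

/-- Two elements of `K⟮∅, n⟯` whose `n`-th root ideals are in the same class differ by a unit. -/
theorem mwks_fiber (n : ℕ) {x x' : Kˣ} {J J' : (FractionalIdeal R⁰ K)ˣ}
    (hJ : J ^ n = toPrincipalIdeal R K x) (hJ' : J' ^ n = toPrincipalIdeal R K x')
    (h : (QuotientGroup.mk J : (FractionalIdeal R⁰ K)ˣ ⧸ (toPrincipalIdeal R K).range) =
      QuotientGroup.mk J') :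
    ∃ u : Rˣ, (QuotientGroup.mk x' : Kˣ ⧸ (powMonoidHom n : Kˣ →* Kˣ).range) =
      QuotientGroup.mk x * QuotientGroup.mk (Units.map (algebraMap R K : R →* K) u) := by
  rw [QuotientGroup.eq] at h
  obtain ⟨z, hz⟩ := h
  have h1 : toPrincipalIdeal R K x' = toPrincipalIdeal R K (x * z ^ n) := by
    rw [map_mul, map_pow, hz, ← hJ, ← hJ', mul_pow, inv_pow, mul_inv_cancel_left]
  have h2 : spanSingleton R⁰ ((x * z ^ n : Kˣ) : K) = spanSingleton R⁰ (x' : K) := by
    have := congrArg (fun I : (FractionalIdeal R⁰ K)ˣ => (I : FractionalIdeal R⁰ K)) h1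
    simpa only [coe_toPrincipalIdeal] using this.symm
  obtain ⟨u, hu⟩ := spanSingleton_eq_spanSingleton.mp h2
  refine ⟨u, ?_⟩
  rw [← QuotientGroup.mk_mul, QuotientGroup.eq]
  refine ⟨z⁻¹, ?_⟩
  have hx' : x' = Units.map (algebraMap R K : R →* K) u * (x * z ^ n) := by
    apply Units.ext
    rw [← hu, Units.smul_def, Algebra.smul_def]
    simp
  rw [powMonoidHom_apply, hx', eq_inv_mul_iff_mul_eq, inv_pow, mul_assoc, mul_assoc,
    mul_inv_cancel, mul_one, mul_comm]

/-- The classes of units of `R` in `Kˣ/(Kˣ)ⁿ` form a finite set. -/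
theorem mwks_unitClasses_finite (n : ℕ) [Fact (0 < n)] [Group.FG Rˣ] :
    (Set.range fun u : Rˣ => (QuotientGroup.mk (Units.map (algebraMap R K : R →* K) u) :
      Kˣ ⧸ (powMonoidHom n : Kˣ →* Kˣ).range)).Finite := by
  let ψ : Rˣ →* Kˣ ⧸ (powMonoidHom n : Kˣ →* Kˣ).range :=
    (QuotientGroup.mk' _).comp (Units.map (algebraMap R K : R →* K))
  have hker : (powMonoidHom n : Rˣ →* Rˣ).range ≤ ψ.ker := by
    rintro _ ⟨w, rfl⟩
    rw [MonoidHom.mem_ker]
    show (QuotientGroup.mk (Units.map (algebraMap R K : R →* K) (w ^ n)) :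
      Kˣ ⧸ (powMonoidHom n : Kˣ →* Kˣ).range) = 1
    rw [QuotientGroup.eq_one_iff, map_pow]
    exact ⟨_, rfl⟩
  haveI : Group.FG (Rˣ ⧸ (powMonoidHom n : Rˣ →* Rˣ).range) := QuotientGroup.fg _
  haveI : Finite (Rˣ ⧸ (powMonoidHom n : Rˣ →* Rˣ).range) := by
    apply CommGroup.finite_of_fg_isMulTorsion
    intro g
    obtain ⟨w, rfl⟩ := QuotientGroup.mk_surjective g
    rw [isOfFinOrder_iff_pow_eq_one]
    refine ⟨n, Fact.out, ?_⟩
    rw [← QuotientGroup.mk_pow, QuotientGroup.eq_one_iff]
    exact ⟨w, rfl⟩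
  refine (Set.finite_range (QuotientGroup.lift _ ψ hker)).subset ?_
  rintro _ ⟨u, rfl⟩
  exact ⟨QuotientGroup.mk u, rfl⟩

/-- `K⟮∅, n⟯` is finite when the class group is finite and the unit group finitely generated. -/
theorem mwks_selmer_empty_finite (n : ℕ) [Fact (0 < n)] [Finite (ClassGroup R)] [Group.FG Rˣ] :
    Finite (selmerGroup (R := R) (K := K) (S := (∅ : Set (HeightOneSpectrum R))) (n := n)) := by
  classical
  haveI : Finite ((FractionalIdeal R⁰ K)ˣ ⧸ (toPrincipalIdeal R K).range) :=
    Finite.of_equiv _ (ClassGroup.equiv (R := R) K).toEquiv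
  let f : (Kˣ ⧸ (powMonoidHom n : Kˣ →* Kˣ).range) →
      ((FractionalIdeal R⁰ K)ˣ ⧸ (toPrincipalIdeal R K).range) := fun y =>
    if hy : y ∈ selmerGroup (R := R) (K := K) (S := (∅ : Set (HeightOneSpectrum R))) (n := n)
    then QuotientGroup.mk (mwks_exists_data n y hy).choose_spec.choose else 1
  have hs : (SetLike.coe (selmerGroup (R := R) (K := K)
      (S := (∅ : Set (HeightOneSpectrum R))) (n := n))).Finite := by
    refine Set.Finite.of_finite_fibers f (Set.toFinite _) ?_
    rintro q ⟨y0, hy0, rfl⟩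
    refine ((mwks_unitClasses_finite (R := R) (K := K) n).image (fun t => y0 * t)).subset ?_
    rintro y ⟨hy, hfy⟩
    have hy0' : y0 ∈ selmerGroup (R := R) (K := K) (S := (∅ : Set (HeightOneSpectrum R)))
        (n := n) := hy0
    have hy' : y ∈ selmerGroup (R := R) (K := K) (S := (∅ : Set (HeightOneSpectrum R)))
        (n := n) := hy
    obtain ⟨hx0, hJ0⟩ := (mwks_exists_data n y0 hy0').choose_spec.choose_spec
    obtain ⟨hx, hJ⟩ := (mwks_exists_data n y hy').choose_spec.choose_spec
    have hfy' : f y = f y0 := hfy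
    simp only [f, dif_pos hy0', dif_pos hy'] at hfy'
    obtain ⟨u, hu⟩ := mwks_fiber n hJ0 hJ hfy'.symm
    refine ⟨_, ⟨u, rfl⟩, ?_⟩
    show y0 * _ = y
    rw [← hx, ← hx0]
    exact hu.symm
  exact hs.to_subtype

/-- **Finiteness of the Selmer group `K⟮S, n⟯`** for a Dedekind domain with finite class group and
finitely generated unit group, `S` finite, `0 < n`. -/
theorem mwks_selmer_finite {S : Set (HeightOneSpectrum R)} (hS : S.Finite) (n : ℕ) [Fact (0 < n)]
    [Finite (ClassGroup R)] [Group.FG Rˣ] :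
    Finite (selmerGroup (R := R) (K := K) (S := S) (n := n)) := by
  classical
  haveI := hS.to_subtype
  haveI : NeZero n := ⟨(Fact.out : 0 < n).ne'⟩
  haveI : Finite (Multiplicative (ZMod n)) := Finite.of_equiv (ZMod n) Multiplicative.ofAdd
  let φ := selmerGroup.valuation (R := R) (K := K) (S := S) (n := n)
  haveI hE := mwks_selmer_empty_finite (R := R) (K := K) n
  haveI : Finite φ.ker := by
    have hk : φ.ker = (selmerGroup (R := R) (K := K) (S := (∅ : Set (HeightOneSpectrum R)))
        (n := n)).subgroupOf (selmerGroup (R := R) (K := K) (S := S) (n := n)) :=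
      selmerGroup.valuation_ker_eq
    rw [hk]
    exact Finite.of_injective
      (fun z => (⟨z.1.1, z.2⟩ :
        selmerGroup (R := R) (K := K) (S := (∅ : Set (HeightOneSpectrum R))) (n := n)))
      (fun a b hab => Subtype.ext (Subtype.ext (congrArg
        (fun w : selmerGroup (R := R) (K := K) (S := (∅ : Set (HeightOneSpectrum R)))
          (n := n) => (w : Kˣ ⧸ (powMonoidHom n : Kˣ →* Kˣ).range)) hab)))
  haveI : Finite (selmerGroup (R := R) (K := K) (S := S) (n := n) ⧸ φ.ker) :=
    Finite.of_equiv _ (QuotientGroup.quotientKerEquivRange φ).symm.toEquiv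
  exact Finite.of_equiv _ (Subgroup.groupEquivQuotientProdSubgroup (s := φ.ker)).symm

/-- **Finiteness of `K⟮S, n⟯` for a number field.** -/
theorem mwks_selmerGroup_finite (K : Type*) [Field K] [NumberField K]
    (S : Set (HeightOneSpectrum (NumberField.RingOfIntegers K))) (hS : S.Finite) (n : ℕ)
    [Fact (0 < n)] :
    Finite (selmerGroup (R := NumberField.RingOfIntegers K) (K := K) (S := S) (n := n)) := by
  haveI : Group.FG (NumberField.RingOfIntegers K)ˣ := Group.fg_iff_monoid_fg.mpr inferInstance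
  exact mwks_selmer_finite hS n

/-- Set form, in terms of representatives: the classes in `Kˣ/(Kˣ)ⁿ` of the `x` all of whose
valuations outside `S` are divisible by `n` form a finite set. -/
theorem mwks_finite_classes (K : Type*) [Field K] [NumberField K]
    (S : Set (HeightOneSpectrum (NumberField.RingOfIntegers K))) (hS : S.Finite) (n : ℕ)
    [Fact (0 < n)] :
    {y : Kˣ ⧸ (powMonoidHom n : Kˣ →* Kˣ).range | ∃ x : Kˣ, QuotientGroup.mk x = y ∧
      ∀ v : HeightOneSpectrum (NumberField.RingOfIntegers K), v ∉ S →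
        (n : ℤ) ∣ Multiplicative.toAdd (v.valuationOfNeZero (K := K) x)}.Finite := by
  haveI := mwks_selmerGroup_finite K S hS n
  refine (Set.toFinite (SetLike.coe (selmerGroup (R := NumberField.RingOfIntegers K) (K := K)
    (S := S) (n := n)))).subset ?_
  rintro y ⟨x, rfl, hx⟩
  intro v hv
  exact (mwks_valMod_eq_one_iff v n x).mpr (hx v hv)

end Fermat.Agent.MW
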