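import Mathlib
import Fermat.Agent.V.Div.Modular
import Fermat.Agent.S18
import Fermat.Agent.S27
import Fermat.Agent.G.Kron.Main
import Fermat.Agent.G.Open.Main
import Fermat.Agent.G.Red.Spec

/-!
# Program MW (S17), weak Mordell-Weil half: the Kummer step

Owner: helper3.  Prefix `mwkm_` / `Mwkm`.

* `mwkm_finiteIndex` : ABSTRACT Kummer step.  `Γ` acts on a `2`-divisible abelian group `J`,
  `U ≤ H ≤ Γ` with `U` of finite index in `H`, `J[2]` finite and fixed by `H`, and every `y` with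
  `2 y ∈ J^H` is fixed by `U`.  Then `2 (J^H)` has finite index in `J^H`
  (`x ↦ (σ U ↦ σ y - y)` injects `J^H / 2 J^H` into the finite set of maps `H / U → J[2]`).
* `mwkm_inertia_fix` : for `ℓ ≥ 5`, `ℓ ∤ N`, inertia at `ℓ` fixes every `y : JZero N` such that
  `2 y` is fixed (reduction mod `ℓ` is inertia-invariant and injective on `2`-torsion).
* `MwkmQuadBound K S₀` : the arithmetic input in subgroup form: there is a finite `L ⊇ K` with
  `G_L ≤ V` for every open subgroup `V` of index `≤ 2` in `G_K` containing all inertia subgroups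
  (intersected with `G_K`) at primes outside `S₀`.
* `mwkm_weak` : weak Mordell-Weil for `J₀(N)(K)` from `MwkmQuadBound`.
* `mwkm_exists_K` : a finite normal `K / ℚ` over which all of `J₀(N)[2]` is rational.
-/

set_option autoImplicit false
set_option linter.style.haveILetI false
set_option linter.unusedSectionVars false
set_option linter.unusedVariables false

namespace Fermat.Agent.MW

open ModularCurve AlgebraicCurve

/-! ### Two small finiteness principles -/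

/-- a subgroup `V` is of finite index as soon as some map `φ` to a finite type separates its
left cosets -/
theorem mwkm_finiteIndex_of_map {G : Type*} [Group G] (V : Subgroup G) {T : Type*} [Finite T]
    (φ : G → T) (h : ∀ a b : G, φ a = φ b → a⁻¹ * b ∈ V) : V.FiniteIndex := by
  haveI : Finite (G ⧸ V) := by
    refine Finite.of_injective (fun q : G ⧸ V => φ q.out) ?_
    intro q q' hqq
    have h1 := h _ _ hqq
    rw [← QuotientGroup.out_eq' q, ← QuotientGroup.out_eq' q']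
    exact QuotientGroup.eq.mpr h1
  exact Subgroup.finiteIndex_of_finite_quotient

/-- additive version -/
theorem mwkm_finiteIndex_of_map_add {G : Type*} [AddGroup G] (V : AddSubgroup G) {T : Type*}
    [Finite T] (φ : G → T) (h : ∀ a b : G, φ a = φ b → -a + b ∈ V) : V.FiniteIndex := by
  haveI : Finite (G ⧸ V) := by
    refine Finite.of_injective (fun q : G ⧸ V => φ q.out) ?_
    intro q q' hqq
    have h1 := h _ _ hqq
    rw [← QuotientAddGroup.out_eq' q, ← QuotientAddGroup.out_eq' q']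
    exact QuotientAddGroup.eq.mpr h1
  exact AddSubgroup.finiteIndex_of_finite_quotient

/-! ### The abstract Kummer step -/

section Abstract

variable {Γ J : Type*} [Group Γ] [AddCommGroup J] [DistribMulAction Γ J]

/-- **The abstract Kummer step.** -/
theorem mwkm_finiteIndex (H U : Subgroup Γ) (hUH : U ≤ H)
    (hfin : (U.subgroupOf H).FiniteIndex)
    (hJ2 : {t : J | 2 • t = 0}.Finite)
    (hfix2 : ∀ t : J, 2 • t = 0 → ∀ σ ∈ H, σ • t = t)
    (hdiv : ∀ x : J, ∃ y : J, 2 • y = x)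
    (hU : ∀ y : J, (∀ σ ∈ H, σ • (2 • y) = 2 • y) → ∀ σ ∈ U, σ • y = y) :
    (nsmulAddMonoidHom (α := ↥(FixedPoints.addSubgroup ↥H J)) 2).range.FiniteIndex := by
  classical
  -- finite targets
  haveI hJ2f : Finite {t : J // 2 • t = 0} := hJ2.to_subtype
  haveI hQf : Finite (↥H ⧸ U.subgroupOf H) := Subgroup.finite_quotient_of_finiteIndex
  -- fixed points
  have hmem : ∀ x : ↥(FixedPoints.addSubgroup ↥H J), ∀ σ ∈ H, σ • (x : J) = x := by
    intro x σ hσ
    exact x.2 ⟨σ, hσ⟩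
  choose y hy using hdiv
  have hyU : ∀ x : ↥(FixedPoints.addSubgroup ↥H J), ∀ σ ∈ U, σ • y x = y x := by
    intro x
    refine hU (y x) ?_
    intro σ hσ
    rw [hy]
    exact hmem x σ hσ
  have h2 : ∀ x : ↥(FixedPoints.addSubgroup ↥H J), ∀ σ ∈ H,
      2 • (σ • y (x : J) - y (x : J)) = 0 := by
    intro x σ hσ
    rw [nsmul_sub, smul_comm (2 : ℕ) σ (y (x : J)), hy, hmem x σ hσ, sub_self]
  -- the separating map
  let φ : ↥(FixedPoints.addSubgroup ↥H J) → ((↥H ⧸ U.subgroupOf H) → {t : J // 2 • t = 0}) :=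
    fun x q => ⟨((q.out : ↥H) : Γ) • y (x : J) - y (x : J), h2 x _ (q.out).2⟩
  -- value of the cocycle at any `σ ∈ H` is read off from `φ`
  have hφ : ∀ (x : ↥(FixedPoints.addSubgroup ↥H J)) (σ : Γ) (hσ : σ ∈ H),
      σ • y (x : J) - y (x : J) =
        ((φ x (QuotientGroup.mk (⟨σ, hσ⟩ : ↥H)) : {t : J // 2 • t = 0}) : J) := by
    intro x σ hσ
    obtain ⟨u, hu⟩ := QuotientGroup.mk_out_eq_mul (U.subgroupOf H) (⟨σ, hσ⟩ : ↥H)
    have huU : ((u : ↥H) : Γ) ∈ U := Subgroup.mem_subgroupOf.mp u.2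
    show _ = (((QuotientGroup.mk (⟨σ, hσ⟩ : ↥H) : ↥H ⧸ U.subgroupOf H).out : ↥H) : Γ) • y (x : J)
      - y (x : J)
    rw [hu]
    show _ = (σ * ((u : ↥H) : Γ)) • y (x : J) - y (x : J)
    rw [mul_smul, hyU x _ huU]
  refine mwkm_finiteIndex_of_map_add _ φ ?_
  intro a b hab
  -- `z = y b - y a` is fixed by `H` and `2 z = b - a`
  have hz : ∀ σ ∈ H, σ • (y (b : J) - y (a : J)) = y (b : J) - y (a : J) := by
    intro σ hσ
    have h1 := hφ a σ hσ
    have h3 := hφ b σ hσ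
    rw [hab] at h1
    rw [← h3] at h1
    rw [smul_sub]
    have : σ • y (b : J) = σ • y (a : J) - y (a : J) + y (b : J) := by
      rw [h1]; abel
    rw [this]; abel
  have hzmem : y (b : J) - y (a : J) ∈ FixedPoints.addSubgroup ↥H J := by
    intro m
    exact hz m.1 m.2
  refine ⟨⟨y (b : J) - y (a : J), hzmem⟩, ?_⟩
  apply Subtype.ext
  show 2 • (y (b : J) - y (a : J)) = ((-a + b : ↥(FixedPoints.addSubgroup ↥H J)) : J)
  rw [nsmul_sub, hy, hy]
  push_cast
  abel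

end Abstract

/-! ### The modular Jacobian -/

section Modular

local notation "Qb" => AlgebraicClosure ℚ
local notation "Γℚ" => (AlgebraicClosure ℚ ≃ₐ[ℚ] AlgebraicClosure ℚ)

/-- fixing subgroups are antitone -/
theorem mwkm_fixing_anti {E₁ E₂ : IntermediateField ℚ Qb} (h : E₁ ≤ E₂) :
    E₂.fixingSubgroup ≤ E₁.fixingSubgroup := by
  intro σ hσ
  rw [IntermediateField.mem_fixingSubgroup_iff] at hσ ⊢
  exact fun x hx => hσ x (h hx)

/-- **Inertia at `ℓ ≥ 5`, `ℓ ∤ N`, fixes every half of a fixed point.** -/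
theorem mwkm_inertia_fix (N : ℕ) [NeZero N] {ℓ : ℕ} [Fact ℓ.Prime] (h5 : 5 ≤ ℓ) (hℓN : ¬ ℓ ∣ N)
    (A : ValuationSubring Qb) (hA : A.LiesOverPrime ℓ) (σ : Γℚ)
    (hσ : σ ∈ A.inertiaSubgroupIn ℚ) (y : JZero N) (h2 : σ • (2 • y) = 2 • y) : σ • y = y := by
  have hin : ReductionInputsModL A N := Fermat.Agent.G.grd_reductionInputs_large N A hℓN hA h5
  have hz : 2 • (σ • y - y) = 0 := by
    rw [nsmul_sub, smul_comm (2 : ℕ) σ y, h2, sub_self]
  have hred : reductionModL A N (σ • y - y) = 0 := by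
    rw [map_sub, Fermat.Agent.G.ghr_I3 N ℓ Fact.out hℓN A hA hin σ hσ y, sub_self]
  have hℓ2 : ¬ ℓ ∣ 2 := fun h => by
    have := Nat.le_of_dvd (by norm_num) h
    omega
  exact sub_eq_zero.mp (Fermat.Agent.S18.result N hℓN A hA hin 2 hℓ2 (σ • y - y) hz hred)

/-- `J₀(N)[2]` is finite (S27). -/
theorem mwkm_two_torsion_finite (N : ℕ) [NeZero N] : {t : JZero N | 2 • t = 0}.Finite := by
  haveI := Fermat.Agent.V.v27dv_isCurveOver_modular N
  haveI := Fermat.Agent.V.v27dv_essFiniteType_modular N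
  have h := Fermat.Agent.S27.result Qb (modularFunctionFieldBar N) 2 1
  have hfin : Finite ↥(Pic0.torsion Qb (modularFunctionFieldBar N) (2 ^ 1)) :=
    Nat.finite_of_card_ne_zero (by rw [h]; positivity)
  have hset : {t : JZero N | 2 • t = 0} =
      (↑(Pic0.torsion Qb (modularFunctionFieldBar N) (2 ^ 1)) : Set (JZero N)) := by
    ext t
    simp only [Set.mem_ofPred_eq, SetLike.mem_coe, Pic0.mem_torsion]
    constructor
    · intro ht
      have : ((2 ^ 1 : ℕ) : ℤ) • t = (2 : ℕ) • t := by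
        rw [pow_one, natCast_zsmul]
      rw [this]; exact ht
    · intro ht
      have : ((2 ^ 1 : ℕ) : ℤ) • t = (2 : ℕ) • t := by
        rw [pow_one, natCast_zsmul]
      rw [this] at ht; exact ht
  rw [hset]
  exact Set.toFinite _

/-- a finite normal `K / ℚ` over which all `2`-torsion is rational -/
theorem mwkm_exists_K (N : ℕ) [NeZero N] :
    ∃ K : IntermediateField ℚ Qb, FiniteDimensional ℚ K ∧ Normal ℚ K ∧
      ∀ t : JZero N, 2 • t = 0 → ∀ σ ∈ K.fixingSubgroup, σ • t = t := by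
  obtain ⟨E, hE, hn, h⟩ :=
    Fermat.Agent.G.gop_finite_fixing_normal N _ (mwkm_two_torsion_finite N)
  exact ⟨E, hE, hn, fun t ht σ hσ => h σ hσ t ht⟩

/-- the same above a given finite `K₀` -/
theorem mwkm_exists_K_ge (N : ℕ) [NeZero N] (K₀ : IntermediateField ℚ Qb)
    [FiniteDimensional ℚ K₀] :
    ∃ K : IntermediateField ℚ Qb, K₀ ≤ K ∧ FiniteDimensional ℚ K ∧ Normal ℚ K ∧
      ∀ t : JZero N, 2 • t = 0 → ∀ σ ∈ K.fixingSubgroup, σ • t = t := by
  obtain ⟨E, hE, hn, h⟩ := mwkm_exists_K N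
  haveI := hE
  haveI : FiniteDimensional ℚ ↥(K₀ ⊔ E) := IntermediateField.finiteDimensional_sup K₀ E
  have hcl : IsAlgClosure ℚ Qb := AlgebraicClosure.instIsAlgClosure ℚ
  have hnorm : Normal ℚ Qb := IsAlgClosure.normal ℚ Qb
  refine ⟨IntermediateField.normalClosure ℚ ↥(K₀ ⊔ E) Qb,
    le_trans le_sup_left (IntermediateField.le_normalClosure (K₀ ⊔ E)),
    normalClosure.is_finiteDimensional ℚ ↥(K₀ ⊔ E) Qb, normalClosure.normal ℚ ↥(K₀ ⊔ E) Qb,
    fun t ht σ hσ => ?_⟩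
  refine h t ht σ (mwkm_fixing_anti ?_ hσ)
  exact le_trans le_sup_right (IntermediateField.le_normalClosure (K₀ ⊔ E))

/-- the fixing subgroup of a finite extension has finite index -/
theorem mwkm_fixingSubgroup_finiteIndex (E : IntermediateField ℚ Qb) [FiniteDimensional ℚ E] :
    E.fixingSubgroup.FiniteIndex := by
  haveI : Finite (↥E →ₐ[ℚ] Qb) := inferInstance
  refine mwkm_finiteIndex_of_map _
    (fun σ : Γℚ => ((σ : Qb ≃ₐ[ℚ] Qb) : Qb →ₐ[ℚ] Qb).comp E.val) ?_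
  intro a b hab
  rw [IntermediateField.mem_fixingSubgroup_iff]
  intro x hx
  have h1 := DFunLike.congr_fun hab ⟨x, hx⟩
  have h2 : a x = b x := h1
  show (a⁻¹ * b) x = x
  rw [AlgEquiv.mul_apply, ← h2]
  exact a.symm_apply_apply x

/-- **The arithmetic input of weak Mordell-Weil, in subgroup form**: the compositum of the
quadratic extensions of `K` unramified outside `S₀` is finite. -/
def MwkmQuadBound (K : IntermediateField ℚ Qb) (S₀ : Finset ℕ) : Prop :=
  ∃ L : IntermediateField ℚ Qb, FiniteDimensional ℚ L ∧ K ≤ L ∧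
    ∀ V : Subgroup Γℚ, V ≤ K.fixingSubgroup →
      (∃ E : IntermediateField ℚ Qb, FiniteDimensional ℚ E ∧ E.fixingSubgroup ≤ V) →
      (∀ σ ∈ K.fixingSubgroup, ∀ τ ∈ K.fixingSubgroup, σ ∉ V → τ ∉ V → σ⁻¹ * τ ∈ V) →
      (∀ ℓ : ℕ, ℓ.Prime → ℓ ∉ S₀ → ∀ A : ValuationSubring Qb, A.LiesOverPrime ℓ →
        ∀ σ ∈ A.inertiaSubgroupIn ℚ, σ ∈ K.fixingSubgroup → σ ∈ V) →
      L.fixingSubgroup ≤ V

theorem mwkm_zmod_two_eq_one : ∀ a : ZMod 2, a ≠ 0 → a = 1 := by decide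

/-- **Weak Mordell-Weil for `J₀(N)(K)`** modulo the arithmetic input `MwkmQuadBound`. -/
theorem mwkm_weak (N : ℕ) [NeZero N] (K : IntermediateField ℚ Qb) [FiniteDimensional ℚ K]
    (hK2 : ∀ t : JZero N, 2 • t = 0 → ∀ σ ∈ K.fixingSubgroup, σ • t = t)
    (hB : MwkmQuadBound K (insert 2 (insert 3 N.primeFactors))) :
    (nsmulAddMonoidHom
      (α := ↥(FixedPoints.addSubgroup ↥K.fixingSubgroup (JZero N))) 2).range.FiniteIndex := by
  classical
  obtain ⟨L, hLfin, hKL, hL⟩ := hB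
  haveI := hLfin
  have hUH : L.fixingSubgroup ≤ K.fixingSubgroup :=
    mwkm_fixing_anti hKL
  haveI := mwkm_fixingSubgroup_finiteIndex L
  refine mwkm_finiteIndex K.fixingSubgroup L.fixingSubgroup hUH inferInstance
    (mwkm_two_torsion_finite N) hK2
    (fun x => Fermat.Agent.V.v27dv_JZero_divisible N 2 two_pos x) ?_
  intro y hy σ₀ hσ₀
  -- the `2`-torsion as an `𝔽₂`-vector space
  let T2 : AddSubgroup (JZero N) := (nsmulAddMonoidHom (α := JZero N) 2).ker
  have hT2 : ∀ t : JZero N, t ∈ T2 ↔ 2 • t = 0 := fun t => by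
    show t ∈ (nsmulAddMonoidHom (α := JZero N) 2).ker ↔ _
    rw [AddMonoidHom.mem_ker, nsmulAddMonoidHom_apply]
  letI : Module (ZMod 2) ↥T2 := AddCommGroup.zmodModule (by
    intro t
    apply Subtype.ext
    have := (hT2 t.1).mp t.2
    show ((2 • t : ↥T2) : JZero N) = ((0 : ↥T2) : JZero N)
    rw [AddSubgroup.coe_nsmul, AddSubgroup.coe_zero]
    exact this)
  -- the cocycle
  set c : Γℚ → JZero N := fun σ => σ • y - y with hc
  have hcT : ∀ σ ∈ K.fixingSubgroup, c σ ∈ T2 := by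
    intro σ hσ
    rw [hT2]
    show 2 • (σ • y - y) = 0
    rw [nsmul_sub, smul_comm (2 : ℕ) σ y, hy σ hσ, sub_self]
  have hcmul : ∀ σ ∈ K.fixingSubgroup, ∀ τ ∈ K.fixingSubgroup, c (σ * τ) = c σ + c τ := by
    intro σ hσ τ hτ
    have h1 : σ • (τ • y - y) = τ • y - y := hK2 _ ((hT2 _).mp (hcT τ hτ)) σ hσ
    show (σ * τ) • y - y = (σ • y - y) + (τ • y - y)
    rw [mul_smul]
    rw [smul_sub] at h1
    have : σ • τ • y = τ • y - y + σ • y := by
      rw [← h1]; abel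
    rw [this]; abel
  have hcone : c 1 = 0 := by
    show (1 : Γℚ) • y - y = 0
    rw [one_smul, sub_self]
  by_contra hne
  have hne' : c σ₀ ≠ 0 := fun h => hne (sub_eq_zero.mp h)
  have hσ₀K : σ₀ ∈ K.fixingSubgroup := hUH hσ₀
  -- a separating functional
  have he₀ : (⟨c σ₀, hcT σ₀ hσ₀K⟩ : ↥T2) ≠ 0 := fun h => hne' (congrArg Subtype.val h)
  obtain ⟨φ, hφ⟩ : ∃ φ : Module.Dual (ZMod 2) ↥T2, φ ⟨c σ₀, hcT σ₀ hσ₀K⟩ ≠ 0 := by
    by_contra hall
    push Not at hall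
    exact he₀ ((Module.forall_dual_apply_eq_zero_iff (ZMod 2) _).mp hall)
  -- the character
  let ψ : JZero N → ZMod 2 := fun t => if h : t ∈ T2 then φ ⟨t, h⟩ else 0
  have hψadd : ∀ s ∈ T2, ∀ t ∈ T2, ψ (s + t) = ψ s + ψ t := by
    intro s hs t ht
    show (if h : s + t ∈ T2 then φ ⟨s + t, h⟩ else 0) =
      (if h : s ∈ T2 then φ ⟨s, h⟩ else 0) + (if h : t ∈ T2 then φ ⟨t, h⟩ else 0)
    rw [dif_pos (T2.add_mem hs ht), dif_pos hs, dif_pos ht, ← map_add]
    rfl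
  have hψ0 : ψ 0 = 0 := by
    show (if h : (0 : JZero N) ∈ T2 then φ ⟨0, h⟩ else 0) = 0
    rw [dif_pos T2.zero_mem]
    exact map_zero φ
  let χ : Γℚ → ZMod 2 := fun σ => ψ (c σ)
  have hχmul : ∀ σ ∈ K.fixingSubgroup, ∀ τ ∈ K.fixingSubgroup, χ (σ * τ) = χ σ + χ τ := by
    intro σ hσ τ hτ
    show ψ (c (σ * τ)) = ψ (c σ) + ψ (c τ)
    rw [hcmul σ hσ τ hτ, hψadd _ (hcT σ hσ) _ (hcT τ hτ)]
  have hχone : χ 1 = 0 := by
    show ψ (c 1) = 0
    rw [hcone, hψ0]
  have hχinv : ∀ σ ∈ K.fixingSubgroup, χ σ⁻¹ = - χ σ := by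
    intro σ hσ
    have h1 := hχmul σ⁻¹ (K.fixingSubgroup.inv_mem hσ) σ hσ
    rw [inv_mul_cancel, hχone] at h1
    exact eq_neg_of_add_eq_zero_left h1.symm
  -- the subgroup of index `≤ 2`
  let V : Subgroup Γℚ :=
    { carrier := {σ | σ ∈ K.fixingSubgroup ∧ χ σ = 0}
      mul_mem' := by
        rintro σ τ ⟨hσ, hσ0⟩ ⟨hτ, hτ0⟩
        exact ⟨K.fixingSubgroup.mul_mem hσ hτ, by rw [hχmul σ hσ τ hτ, hσ0, hτ0, add_zero]⟩
      one_mem' := ⟨K.fixingSubgroup.one_mem, hχone⟩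
      inv_mem' := by
        rintro σ ⟨hσ, hσ0⟩
        exact ⟨K.fixingSubgroup.inv_mem hσ, by rw [hχinv σ hσ, hσ0, neg_zero]⟩ }
  have hVmem : ∀ σ, σ ∈ V ↔ σ ∈ K.fixingSubgroup ∧ χ σ = 0 := fun σ => Iff.rfl
  have hχfix : ∀ σ : Γℚ, σ • y = y → χ σ = 0 := by
    intro σ hσy
    show ψ (σ • y - y) = 0
    rw [hσy, sub_self, hψ0]
  have hσ₀V : σ₀ ∈ V := by
    refine hL V (fun σ hσ => hσ.1) ?_ ?_ ?_ hσ₀
    · -- open
      obtain ⟨E, hE, hEy⟩ := Fermat.Agent.G.gop_exists_fixing N y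
      haveI := hE
      refine ⟨K ⊔ E, IntermediateField.finiteDimensional_sup K E, fun σ hσ => ?_⟩
      exact ⟨mwkm_fixing_anti le_sup_left hσ,
        hχfix σ (hEy σ (mwkm_fixing_anti le_sup_right hσ))⟩
    · -- index ≤ 2
      intro σ hσ τ hτ hσV hτV
      have h1 : χ σ = 1 := mwkm_zmod_two_eq_one _ (fun h => hσV ⟨hσ, h⟩)
      have h2 : χ τ = 1 := mwkm_zmod_two_eq_one _ (fun h => hτV ⟨hτ, h⟩)
      refine ⟨K.fixingSubgroup.mul_mem (K.fixingSubgroup.inv_mem hσ) hτ, ?_⟩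
      rw [hχmul _ (K.fixingSubgroup.inv_mem hσ) _ hτ, hχinv σ hσ, h1, h2, neg_add_cancel]
    · -- inertia
      intro ℓ hℓ hℓS A hA σ hσI hσK
      refine ⟨hσK, hχfix σ ?_⟩
      have hℓ2 : ℓ ≠ 2 := fun h => hℓS (by rw [h]; exact Finset.mem_insert_self _ _)
      have hℓ3 : ℓ ≠ 3 := fun h =>
        hℓS (by rw [h]; exact Finset.mem_insert_of_mem (Finset.mem_insert_self _ _))
      have hℓN : ¬ ℓ ∣ N := fun h =>
        hℓS (Finset.mem_insert_of_mem (Finset.mem_insert_of_mem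
          (Nat.mem_primeFactors.mpr ⟨hℓ, h, NeZero.ne N⟩)))
      have h5 : 5 ≤ ℓ := by
        have h2 := hℓ.two_le
        by_contra hlt
        have h4 : ℓ = 4 := by omega
        rw [h4] at hℓ
        exact absurd hℓ (by decide)
      haveI : Fact ℓ.Prime := ⟨hℓ⟩
      exact mwkm_inertia_fix N h5 hℓN A hA σ hσI y (hy σ hσK)
  have h0 : χ σ₀ = 0 := hσ₀V.2
  apply hφ
  have : χ σ₀ = φ ⟨c σ₀, hcT σ₀ hσ₀K⟩ := by
    show (if h : c σ₀ ∈ T2 then φ ⟨c σ₀, h⟩ else 0) = _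
    rw [dif_pos (hcT σ₀ hσ₀K)]
  rw [← this]; exact h0

end Modular

end Fermat.Agent.MW
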