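import Mathlib
import Fermat.Prelude.Def_FLTPrelim_Ramification
import Fermat.Agent.MW.KSn

/-!
# The glue leaf (B): finiteness of the compositum of quadratic extensions
unramified outside a finite set (subgroup form).
-/

set_option autoImplicit false

noncomputable section

namespace Fermat.Agent.MW

open IsDedekindDomain NumberField

local notation "Qb" => AlgebraicClosure ℚ
local notation "Γ" => (AlgebraicClosure ℚ) ≃ₐ[ℚ] (AlgebraicClosure ℚ)

local instance mwqb_isAlgebraic : Algebra.IsAlgebraic ℚ (AlgebraicClosure ℚ) :=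
  AlgebraicClosure.isAlgebraic ℚ
local instance mwqb_isAlgClosure : IsAlgClosure ℚ (AlgebraicClosure ℚ) :=
  ⟨inferInstance, inferInstance⟩
local instance mwqb_normal : Normal ℚ (AlgebraicClosure ℚ) :=
  IsAlgClosure.normal ℚ (AlgebraicClosure ℚ)
local instance mwqb_isGalois : IsGalois ℚ (AlgebraicClosure ℚ) := inferInstance

/-- An open subgroup is the fixing subgroup of its fixed field. -/
theorem mwqb_fixing_fixed (V : Subgroup Γ)
    (hopen : ∃ E : IntermediateField ℚ Qb, FiniteDimensional ℚ E ∧ E.fixingSubgroup ≤ V) :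
    (IntermediateField.fixedField V).fixingSubgroup = V := by
  obtain ⟨E, hE, hEV⟩ := hopen
  have ho : IsOpen (V : Set Γ) := Subgroup.isOpen_mono hEV E.fixingSubgroup_isOpen
  have hc : IsClosed (V : Set Γ) := V.isClosed_of_isOpen ho
  exact InfiniteGalois.fixingSubgroup_fixedField ⟨V, hc⟩

/-- (Q1) an open subgroup of index at most two of `G_K` is the stabiliser in `G_K` of a
square root of an element of `K`. -/
theorem mwqb_exists_sqrt (K : IntermediateField ℚ Qb) (V : Subgroup Γ)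
    (hVK : V ≤ K.fixingSubgroup)
    (hopen : ∃ E : IntermediateField ℚ Qb, FiniteDimensional ℚ E ∧ E.fixingSubgroup ≤ V)
    (h2 : ∀ σ ∈ K.fixingSubgroup, ∀ τ ∈ K.fixingSubgroup, σ ∉ V → τ ∉ V → σ⁻¹ * τ ∈ V) :
    ∃ s : Qb, s ≠ 0 ∧ s ^ 2 ∈ K ∧ ∀ σ ∈ K.fixingSubgroup, (σ ∈ V ↔ σ s = s) := by
  classical
  by_cases hall : ∀ σ ∈ K.fixingSubgroup, σ ∈ V
  · exact ⟨1, one_ne_zero, by simp,
      fun σ hσ => ⟨fun _ => map_one σ, fun _ => hall σ hσ⟩⟩
  · push Not at hall
    obtain ⟨τ₀, hτK, hτV⟩ := hall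
    have hfix := mwqb_fixing_fixed V hopen
    have hθ : ∃ θ ∈ IntermediateField.fixedField V, τ₀ θ ≠ θ := by
      by_contra hcon
      push Not at hcon
      apply hτV
      rw [← hfix, IntermediateField.mem_fixingSubgroup_iff]
      exact fun x hx => hcon x hx
    obtain ⟨θ, hθV, hθτ⟩ := hθ
    have hθfix : ∀ σ ∈ V, σ θ = θ := fun σ hσ =>
      (IntermediateField.mem_fixedField_iff V θ).1 hθV σ hσ
    set s := θ - τ₀ θ with hs
    have hV : ∀ σ ∈ V, σ s = s := by
      intro σ hσ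
      have h1 : σ * τ₀ ∉ V := fun h => hτV (by simpa using V.mul_mem (V.inv_mem hσ) h)
      have h3 : τ₀⁻¹ * (σ * τ₀) ∈ V :=
        h2 τ₀ hτK (σ * τ₀) (K.fixingSubgroup.mul_mem (hVK hσ) hτK) hτV h1
      have h4 := hθfix _ h3
      have h5 : σ (τ₀ θ) = τ₀ θ := by
        have := congrArg τ₀ h4
        simpa [AlgEquiv.mul_apply] using this
      rw [hs, map_sub, hθfix σ hσ, h5]
    have hnV : ∀ σ ∈ K.fixingSubgroup, σ ∉ V → σ s = -s := by
      intro σ hσK hσV
      have h1 : τ₀⁻¹ * σ ∈ V := h2 τ₀ hτK σ hσK hτV hσV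
      have h3 : σ θ = τ₀ θ := by
        have := congrArg τ₀ (hθfix _ h1)
        simpa [AlgEquiv.mul_apply] using this
      have h4 : (σ⁻¹)⁻¹ * τ₀ ∈ V :=
        h2 σ⁻¹ (K.fixingSubgroup.inv_mem hσK) τ₀ hτK
          (fun h => hσV (by simpa using V.inv_mem h)) hτV
      have h5 : σ (τ₀ θ) = θ := by
        have := hθfix _ h4
        simpa [AlgEquiv.mul_apply] using this
      rw [hs, map_sub, h3, h5]; ring
    have hs0 : s ≠ 0 := by
      rw [hs]; exact sub_ne_zero.2 (Ne.symm hθτ)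
    refine ⟨s, hs0, ?_, ?_⟩
    · rw [← InfiniteGalois.fixedField_fixingSubgroup K, IntermediateField.mem_fixedField_iff]
      intro σ hσ
      by_cases hσV : σ ∈ V
      · rw [map_pow, hV σ hσV]
      · rw [map_pow, hnV σ hσ hσV]; ring
    · intro σ hσ
      refine ⟨hV σ, fun h => ?_⟩
      by_contra hσV
      have h6 := hnV σ hσ hσV
      rw [h] at h6
      have h7 : (2 : Qb) * s = 0 := by linear_combination h6
      rcases mul_eq_zero.1 h7 with h' | h'
      · exact two_ne_zero h'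
      · exact hs0 h'

/-- (Q2) THE GLUE: the compositum of the quadratic extensions of `K` unramified outside `S₀`
is finite (subgroup form), given the bridge `hUn` "unramified ⟹ Selmer class". -/
theorem mwqb_quadBound (K : IntermediateField ℚ Qb) [NumberField K] (S₀ : Finset ℕ)
    (Sbad : Set (HeightOneSpectrum (𝓞 K))) (hSbad : Sbad.Finite)
    (hUn : ∀ (a : Kˣ) (s : Qb), s ^ 2 = ((a : K) : Qb) →
      (∀ ℓ : ℕ, ℓ.Prime → ℓ ∉ S₀ → ∀ A : ValuationSubring Qb, A.LiesOverPrime ℓ →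
        ∀ σ ∈ A.inertiaSubgroupIn ℚ, σ ∈ K.fixingSubgroup → σ s = s) →
      (QuotientGroup.mk a : Kˣ ⧸ (powMonoidHom 2 : Kˣ →* Kˣ).range) ∈
        selmerGroup (R := 𝓞 K) (K := K) (S := Sbad) (n := 2)) :
    ∃ L : IntermediateField ℚ Qb, FiniteDimensional ℚ L ∧ K ≤ L ∧
      ∀ V : Subgroup Γ, V ≤ K.fixingSubgroup →
        (∃ E : IntermediateField ℚ Qb, FiniteDimensional ℚ E ∧ E.fixingSubgroup ≤ V) →
        (∀ σ ∈ K.fixingSubgroup, ∀ τ ∈ K.fixingSubgroup, σ ∉ V → τ ∉ V → σ⁻¹ * τ ∈ V) →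
        (∀ ℓ : ℕ, ℓ.Prime → ℓ ∉ S₀ → ∀ A : ValuationSubring Qb, A.LiesOverPrime ℓ →
          ∀ σ ∈ A.inertiaSubgroupIn ℚ, σ ∈ K.fixingSubgroup → σ ∈ V) →
        L.fixingSubgroup ≤ V := by
  classical
  have : Fact (0 < 2) := ⟨two_pos⟩
  have hfin : Finite (selmerGroup (R := 𝓞 K) (K := K) (S := Sbad) (n := 2)) :=
    mwks_selmerGroup_finite K Sbad hSbad 2
  have hroot : ∀ t : Kˣ, ∃ r : Qb, r ^ 2 = ((t : K) : Qb) := fun t =>
    IsAlgClosed.exists_pow_nat_eq _ two_pos
  choose r hr using hroot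
  let rep : selmerGroup (R := 𝓞 K) (K := K) (S := Sbad) (n := 2) → Kˣ := fun c =>
    Quotient.out (c : Kˣ ⧸ (powMonoidHom 2 : Kˣ →* Kˣ).range)
  have hrep : ∀ c : selmerGroup (R := 𝓞 K) (K := K) (S := Sbad) (n := 2),
      (QuotientGroup.mk (rep c) : Kˣ ⧸ (powMonoidHom 2 : Kˣ →* Kˣ).range) = c := fun c =>
    Quotient.out_eq _
  let T : Set Qb := Set.range (fun c => r (rep c))
  have hT : T.Finite := Set.finite_range _
  have : Finite T := hT
  refine ⟨K ⊔ IntermediateField.adjoin ℚ T, ?_, le_sup_left, ?_⟩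
  · have : FiniteDimensional ℚ (IntermediateField.adjoin ℚ T) :=
      IntermediateField.finiteDimensional_adjoin (fun x _ => Algebra.IsIntegral.isIntegral x)
    exact IntermediateField.finiteDimensional_sup K _
  · intro V hVK hopen h2 hin σ hσ
    have hσK : σ ∈ K.fixingSubgroup := IntermediateField.fixingSubgroup_antitone le_sup_left hσ
    have hσT : σ ∈ (IntermediateField.adjoin ℚ T).fixingSubgroup :=
      IntermediateField.fixingSubgroup_antitone le_sup_right hσ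
    obtain ⟨s, hs0, hsK, hsV⟩ := mwqb_exists_sqrt K V hVK hopen h2
    rw [hsV σ hσK]
    -- the unit `a = s ^ 2` of `K`
    have ha0 : (⟨s ^ 2, hsK⟩ : K) ≠ 0 := by
      intro h
      exact hs0 (pow_eq_zero_iff two_ne_zero |>.1 (congrArg Subtype.val h))
    set a : Kˣ := Units.mk0 ⟨s ^ 2, hsK⟩ ha0 with ha
    have hmem := hUn a s rfl (fun ℓ hℓ hℓS A hA τ hτ hτK => (hsV τ hτK).1 (hin ℓ hℓ hℓS A hA τ hτ hτK))
    set c : selmerGroup (R := 𝓞 K) (K := K) (S := Sbad) (n := 2) := ⟨_, hmem⟩ with hc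
    have hta : (QuotientGroup.mk a : Kˣ ⧸ (powMonoidHom 2 : Kˣ →* Kˣ).range) =
        QuotientGroup.mk (rep c) := (hrep c).symm
    rw [QuotientGroup.eq] at hta
    obtain ⟨b, hb⟩ := hta
    -- `rep c = a * b ^ 2`
    have hb' : (rep c : Kˣ) = a * b ^ 2 := by
      have : b ^ 2 = a⁻¹ * rep c := hb
      rw [this]; group
    have hb2 : (((rep c : Kˣ) : K) : Qb) = s ^ 2 * (((b : Kˣ) : K) : Qb) ^ 2 := by
      rw [hb']; simp [ha]
    have hrt : σ (r (rep c)) = r (rep c) := by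
      rw [IntermediateField.mem_fixingSubgroup_iff] at hσT
      exact hσT _ (IntermediateField.subset_adjoin ℚ T ⟨c, rfl⟩)
    have hbfix : σ (((b : Kˣ) : K) : Qb) = (((b : Kˣ) : K) : Qb) := by
      rw [IntermediateField.mem_fixingSubgroup_iff] at hσK
      exact hσK _ (b : K).2
    have hbne : (((b : Kˣ) : K) : Qb) ≠ 0 := by
      intro h
      exact b.ne_zero (Subtype.ext h)
    have hsq : (r (rep c)) ^ 2 = (s * (((b : Kˣ) : K) : Qb)) ^ 2 := by
      rw [hr, hb2]; ring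
    rcases sq_eq_sq_iff_eq_or_eq_neg.1 hsq with h | h
    · have hs' : s = r (rep c) / (((b : Kˣ) : K) : Qb) := by
        rw [h]; field_simp
      rw [hs', map_div₀, hrt, hbfix]
    · have hs' : s = -(r (rep c) / (((b : Kˣ) : K) : Qb)) := by
        rw [h]; field_simp
      rw [hs', map_neg, map_div₀, hrt, hbfix]

end Fermat.Agent.MW
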