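import Fermat.Agent.MW.UnramAbs
import Fermat.Prelude.Def_FLTPrelim_Ramification
import Fermat.Agent.S14.PlumbInertia

/-!
# S17 weak Mordell-Weil, leaf R3b: unramified in the Prelude's sense implies Selmer membership

`K ⊆ Qb` a number field, `a ∈ Kˣ`, `s ∈ Qb` a square root of `a`.  If for every prime `ℓ ∉ S₀`,
every valuation subring `A` of `Qb` over `ℓ` and every `σ ∈ A.inertiaSubgroupIn ℚ` fixing `K`
pointwise we have `σ s = s`, then the class of `a` lies in Mathlib's Selmer group `K⟮S, 2⟯`,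
`S` = the (finite) set of height-one primes of `𝓞 K` over `S₀`.

Inputs : `Fermat.Agent.S14.exists_inertia_lift` (main) and the abstract ramification lemma
`mwun_valuationOfNeZero_sq` of `MW/UnramAbs.lean`.
-/

set_option autoImplicit false
set_option linter.unusedSectionVars false
noncomputable section
namespace Fermat.Agent.MW
open NumberField IsDedekindDomain Ideal

local notation "Qb" => AlgebraicClosure ℚ

local instance mwun_isAlgebraic : Algebra.IsAlgebraic ℚ (AlgebraicClosure ℚ) :=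
  AlgebraicClosure.isAlgebraic ℚ
local instance mwun_isAlgClosure : IsAlgClosure ℚ (AlgebraicClosure ℚ) :=
  ⟨inferInstance, inferInstance⟩
local instance mwun_normalQb : Normal ℚ (AlgebraicClosure ℚ) :=
  IsAlgClosure.normal ℚ (AlgebraicClosure ℚ)

/-- the Galois closure of `K(s)` inside `Qb`. -/
def mwunM (K : IntermediateField ℚ Qb) (s : Qb) : IntermediateField ℚ Qb :=
  IntermediateField.normalClosure ℚ ↥(K ⊔ IntermediateField.adjoin ℚ {s}) Qb

theorem mwun_le_M (K : IntermediateField ℚ Qb) (s : Qb) : K ≤ mwunM K s :=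
  le_trans le_sup_left (IntermediateField.le_normalClosure _)

theorem mwun_mem_M (K : IntermediateField ℚ Qb) (s : Qb) : s ∈ mwunM K s :=
  IntermediateField.le_normalClosure _
    ((le_sup_right : IntermediateField.adjoin ℚ {s} ≤ K ⊔ IntermediateField.adjoin ℚ {s})
      (IntermediateField.mem_adjoin_simple_self ℚ s))

instance mwun_fd_M (K : IntermediateField ℚ Qb) [FiniteDimensional ℚ K] (s : Qb) :
    FiniteDimensional ℚ (mwunM K s) := by
  have : FiniteDimensional ℚ (IntermediateField.adjoin ℚ {s}) :=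
    IntermediateField.adjoin.finiteDimensional (Algebra.IsIntegral.isIntegral s)
  unfold mwunM
  infer_instance

instance mwun_normal_M (K : IntermediateField ℚ Qb) (s : Qb) : Normal ℚ (mwunM K s) := by
  unfold mwunM
  exact normalClosure.normal ℚ _ Qb


section main

variable (K : IntermediateField ℚ Qb) [NumberField K] (s : Qb)

/-- `M` as a `K`-algebra (inclusion). -/
local instance mwun_algKM : Algebra K (mwunM K s) :=
  (IntermediateField.inclusion (mwun_le_M K s)).toRingHom.toAlgebra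

local instance mwun_towerQKM : IsScalarTower ℚ K (mwunM K s) :=
  IsScalarTower.of_algebraMap_eq fun _ => rfl

local instance mwun_nfM : NumberField (mwunM K s) :=
  { to_charZero := inferInstance, to_finiteDimensional := inferInstance }

local instance mwun_galQM : IsGalois ℚ (mwunM K s) := ⟨⟩

local instance mwun_galKM : IsGalois K (mwunM K s) := IsGalois.tower_top_of_isGalois ℚ K (mwunM K s)

theorem mwun_core (S₀ : Finset ℕ) (a : Kˣ) (hs : s ^ 2 = (((a : Kˣ) : K) : Qb))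
    (hunr : ∀ ℓ : ℕ, ℓ.Prime → ℓ ∉ S₀ → ∀ A : ValuationSubring Qb,
      A.LiesOverPrime ℓ → ∀ σ ∈ A.inertiaSubgroupIn ℚ, σ ∈ K.fixingSubgroup → σ s = s)
    (v : HeightOneSpectrum (𝓞 K)) (hv : ∀ ℓ ∈ S₀, ℓ.Prime → ((ℓ : ℕ) : 𝓞 K) ∉ v.asIdeal) :
    ∃ m : Multiplicative ℤ, v.valuationOfNeZero a = m ^ 2 := by
  classical
  set M := mwunM K s with hM
  -- a prime of `M` over `v`
  obtain ⟨⟨𝔓, h𝔓prime, h𝔓over⟩⟩ := (inferInstance : Nonempty (primesOver v.asIdeal (𝓞 M)))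
  have h𝔓0 : 𝔓 ≠ ⊥ := Ideal.ne_bot_of_liesOver_of_ne_bot v.ne_bot 𝔓
  let s' : M := ⟨s, mwun_mem_M K s⟩
  have hs' : s' ^ 2 = algebraMap K M (a : K) := Subtype.ext hs
  by_contra hcon
  have hex : ∃ σ ∈ Ideal.inertia (M ≃ₐ[K] M) 𝔓, σ s' ≠ s' := by
    by_contra h
    push Not at h
    exact hcon (mwun_valuationOfNeZero_sq v 𝔓 a s' hs' h)
  obtain ⟨σ, hσ, hσs⟩ := hex
  let σ' : M ≃ₐ[ℚ] M := σ.restrictScalars ℚ
  have hσ' : σ' ∈ Ideal.inertia (M ≃ₐ[ℚ] M) 𝔓 := fun x => hσ x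
  obtain ⟨ℓ, A, τ, hℓ, hA, hℓ𝔓, hτ, hres⟩ :=
    Fermat.Agent.S14.exists_inertia_lift M 𝔓 h𝔓0 σ' hσ'
  -- the residue characteristic is not in `S₀`
  have hℓS : ℓ ∉ S₀ := by
    intro hmem
    apply hv ℓ hmem hℓ
    rw [h𝔓over.over, Ideal.mem_comap, map_natCast]
    exact hℓ𝔓
  -- `τ` acts on `M` through `σ`
  have hcomm : ∀ y : M, τ (y : Qb) = ((σ y : M) : Qb) := by
    intro y
    have h1 := AlgEquiv.restrictNormal_commutes τ M y
    rw [hres] at h1
    exact h1.symm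
  have hτK : τ ∈ K.fixingSubgroup := by
    rw [IntermediateField.mem_fixingSubgroup_iff]
    intro x hx
    have h2 := hcomm (algebraMap K M ⟨x, hx⟩)
    rw [σ.commutes] at h2
    exact h2
  have hτs := hunr ℓ hℓ hℓS A hA τ hτ hτK
  apply hσs
  apply Subtype.ext
  rw [← hcomm s']
  exact hτs

end main

section selmer

variable (K : IntermediateField ℚ Qb) [NumberField K]

/-- the height-one primes of `𝓞 K` over a rational prime in `S₀`. -/
def mwunBad (S₀ : Finset ℕ) : Set (HeightOneSpectrum (𝓞 K)) :=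
  {v | ∃ ℓ ∈ S₀, ℓ.Prime ∧ ((ℓ : ℕ) : 𝓞 K) ∈ v.asIdeal}

theorem mwunBad_finite (S₀ : Finset ℕ) : (mwunBad K S₀).Finite := by
  classical
  have hsub : mwunBad K S₀ ⊆
      ⋃ ℓ ∈ S₀.filter Nat.Prime,
        {v : HeightOneSpectrum (𝓞 K) | v.asIdeal ∣ Ideal.span {((ℓ : ℕ) : 𝓞 K)}} := by
    rintro v ⟨ℓ, hℓ, hℓp, hmem⟩
    simp only [Set.mem_iUnion, Set.mem_ofPred_eq]
    refine ⟨ℓ, Finset.mem_filter.mpr ⟨hℓ, hℓp⟩, ?_⟩
    rw [Ideal.dvd_iff_le, Ideal.span_singleton_le_iff_mem]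
    exact hmem
  refine Set.Finite.subset ?_ hsub
  refine Set.Finite.biUnion (S₀.filter Nat.Prime).finite_toSet ?_
  intro ℓ hℓ
  apply Ideal.finite_factors
  intro h
  rw [Ideal.zero_eq_bot, Ideal.span_singleton_eq_bot] at h
  have hℓp : ℓ.Prime := (Finset.mem_filter.mp hℓ).2
  exact hℓp.ne_zero (by exact_mod_cast h)

theorem mwun_mem_selmerGroup (S₀ : Finset ℕ) (a : Kˣ) (s : Qb)
    (hs : s ^ 2 = (((a : Kˣ) : K) : Qb))
    (hunr : ∀ ℓ : ℕ, ℓ.Prime → ℓ ∉ S₀ → ∀ A : ValuationSubring Qb,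
      A.LiesOverPrime ℓ → ∀ σ ∈ A.inertiaSubgroupIn ℚ, σ ∈ K.fixingSubgroup → σ s = s) :
    (QuotientGroup.mk a : Kˣ ⧸ (powMonoidHom 2 : Kˣ →* Kˣ).range) ∈
      IsDedekindDomain.selmerGroup (R := 𝓞 K) (K := K) (S := mwunBad K S₀) (n := 2) := by
  intro v hv
  have hv' : ∀ ℓ ∈ S₀, ℓ.Prime → ((ℓ : ℕ) : 𝓞 K) ∉ v.asIdeal := by
    intro ℓ hℓ hℓp hmem
    exact hv ⟨ℓ, hℓ, hℓp, hmem⟩
  obtain ⟨m, hm⟩ := mwun_core K s S₀ a hs hunr v hv'
  rw [HeightOneSpectrum.valuationOfNeZeroMod, MonoidHom.comp_apply]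
  erw [QuotientGroup.map_mk]
  rw [hm]
  have h1 : (QuotientGroup.mk (m ^ 2) :
      Multiplicative ℤ ⧸ AddSubgroup.toSubgroup (AddSubgroup.zmultiples ((2 : ℕ) : ℤ))) = 1 := by
    rw [QuotientGroup.eq_one_iff]
    refine ⟨Multiplicative.toAdd m, ?_⟩
    show Multiplicative.toAdd m • ((2 : ℕ) : ℤ) = Multiplicative.toAdd (m ^ 2)
    rw [toAdd_pow, smul_eq_mul]
    push_cast
    ring
  erw [h1]
  exact map_one _

end selmer

end Fermat.Agent.MW
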