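import Mathlib

/-!
# S17 weak Mordell-Weil, leaf R3b, abstract part

`M/K` a finite Galois extension of number fields, `𝔓` a nonzero prime of `𝓞 M` over the height one
prime `v` of `𝓞 K`, `s ∈ M` with `s ^ 2 = a ∈ Kˣ`.  If every element of the inertia group of `𝔓` in
`Gal(M/K)` fixes `s`, then the `v`-adic valuation of `a` is a square (i.e. `ord_v a` is even).
-/

set_option autoImplicit false
set_option linter.unusedSectionVars false

namespace Fermat.Agent.MW

open NumberField IsDedekindDomain Ideal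

section abs

variable {K M : Type*} [Field K] [NumberField K] [Field M] [NumberField M] [Algebra K M]

/-- an automorphism fixing `s` fixes `K⟮s⟯` pointwise. -/
theorem mwun_fix_adjoin (σ : M ≃ₐ[K] M) (s : M) (hσ : σ s = s)
    (x : M) (hx : x ∈ IntermediateField.adjoin K {s}) : σ x = x := by
  induction hx using IntermediateField.adjoin_induction with
  | mem y hy =>
    rw [Set.mem_singleton_iff] at hy
    rw [hy, hσ]
  | algebraMap y => exact σ.commutes y
  | add y z _ _ hy hz => rw [map_add, hy, hz]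
  | inv y _ hy => rw [map_inv₀, hy]
  | mul y z _ _ hy hz => rw [map_mul, hy, hz]

/-- the inertia group of `𝔓` in `Gal(M/L)`, `L = K⟮s⟯`, receives the inertia group of `𝔓` in
`Gal(M/K)` as soon as the latter fixes `s`. -/
theorem mwun_card_inertia_le [FiniteDimensional K M] (𝔓 : Ideal (𝓞 M)) (s : M)
    (hfix : ∀ σ ∈ Ideal.inertia (M ≃ₐ[K] M) 𝔓, σ s = s) :
    Nat.card (Ideal.inertia (M ≃ₐ[K] M) 𝔓) ≤
      Nat.card (Ideal.inertia (M ≃ₐ[IntermediateField.adjoin K {s}] M) 𝔓) := by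
  classical
  set L := IntermediateField.adjoin K {s} with hL
  have hmem : ∀ σ ∈ Ideal.inertia (M ≃ₐ[K] M) 𝔓, σ ∈ L.fixingSubgroup := by
    intro σ hσ
    rw [IntermediateField.mem_fixingSubgroup_iff]
    intro x hx
    exact mwun_fix_adjoin σ s (hfix σ hσ) x hx
  let f : Ideal.inertia (M ≃ₐ[K] M) 𝔓 → Ideal.inertia (M ≃ₐ[L] M) 𝔓 := fun σ =>
    ⟨IntermediateField.fixingSubgroupEquiv L ⟨σ.1, hmem σ.1 σ.2⟩, by
      intro x
      exact σ.2 x⟩
  have hf : Function.Injective f := by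
    intro σ τ h
    apply Subtype.ext
    have h1 : (f σ).1 = (f τ).1 := congrArg Subtype.val h
    ext x
    exact DFunLike.congr_fun h1 x
  exact Nat.card_le_card_of_injective f hf

end abs

section gal

variable {K M : Type*} [Field K] [NumberField K] [Field M] [NumberField M] [Algebra K M]
  [IsGalois K M]

theorem mwun_ramificationIdx_eq_one (𝔓 : Ideal (𝓞 M)) [𝔓.IsPrime] (s : M)
    (hfix : ∀ σ ∈ Ideal.inertia (M ≃ₐ[K] M) 𝔓, σ s = s) :
    (𝔓.under (𝓞 (IntermediateField.adjoin K {s}))).ramificationIdx (𝓞 K) = 1 := by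
  classical
  set L := IntermediateField.adjoin K {s} with hL
  have hle := mwun_card_inertia_le 𝔓 s hfix
  have h1 := Ideal.card_inertia_eq_ramificationIdxIn (G := M ≃ₐ[K] M) (𝔓.under (𝓞 K)) 𝔓
  have h2 := Ideal.card_inertia_eq_ramificationIdxIn (G := M ≃ₐ[L] M) (𝔓.under (𝓞 L)) 𝔓
  rw [Ideal.ramificationIdxIn_eq_ramificationIdx (𝔓.under (𝓞 K)) 𝔓 (M ≃ₐ[K] M)] at h1
  rw [Ideal.ramificationIdxIn_eq_ramificationIdx (𝔓.under (𝓞 L)) 𝔓 (M ≃ₐ[L] M)] at h2
  have ht := Ideal.ramificationIdx_tower (R := 𝓞 K) (𝔓.under (𝓞 L)) 𝔓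
  have hposL : 0 < 𝔓.ramificationIdx (𝓞 L) := Ideal.ramificationIdx_pos 𝔓 (𝓞 L)
  have hpos1 : 0 < (𝔓.under (𝓞 L)).ramificationIdx (𝓞 K) :=
    Ideal.ramificationIdx_pos (𝔓.under (𝓞 L)) (𝓞 K)
  rw [h1, h2, ht] at hle
  have : (𝔓.under (𝓞 L)).ramificationIdx (𝓞 K) ≤ 1 := by
    by_contra hc
    have hc' : 2 ≤ (𝔓.under (𝓞 L)).ramificationIdx (𝓞 K) := by omega
    have : 𝔓.ramificationIdx (𝓞 L) * 2 ≤
        (𝔓.under (𝓞 L)).ramificationIdx (𝓞 K) * 𝔓.ramificationIdx (𝓞 L) := by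
      rw [mul_comm]
      exact Nat.mul_le_mul_right _ hc'
    omega
  omega

theorem mwun_valuationOfNeZero_sq (v : HeightOneSpectrum (𝓞 K)) (𝔓 : Ideal (𝓞 M)) [𝔓.IsPrime]
    [𝔓.LiesOver v.asIdeal] (a : Kˣ) (s : M) (hs : s ^ 2 = algebraMap K M (a : K))
    (hfix : ∀ σ ∈ Ideal.inertia (M ≃ₐ[K] M) 𝔓, σ s = s) :
    ∃ m : Multiplicative ℤ, v.valuationOfNeZero a = m ^ 2 := by
  classical
  set L := IntermediateField.adjoin K {s} with hL
  have he := mwun_ramificationIdx_eq_one 𝔓 s hfix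
  -- the prime of `L` below `𝔓`
  have hqv : (𝔓.under (𝓞 L)).LiesOver v.asIdeal := by
    constructor
    rw [Ideal.under_under]
    exact Ideal.LiesOver.over
  have hq0 : 𝔓.under (𝓞 L) ≠ ⊥ := Ideal.ne_bot_of_liesOver_of_ne_bot v.ne_bot _
  let w : HeightOneSpectrum (𝓞 L) := ⟨𝔓.under (𝓞 L), inferInstance, hq0⟩
  have : w.asIdeal.LiesOver v.asIdeal := hqv
  have hval := HeightOneSpectrum.valuation_liesOver (K := K) L v w (a : K)
  have he' : v.asIdeal.ramificationIdx' w.asIdeal = 1 := by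
    rw [Ideal.ramificationIdx'_eq_ramificationIdx v.asIdeal w.asIdeal v.ne_bot]
    exact he
  rw [he', pow_one] at hval
  -- the square root inside `L`
  let sL : L := ⟨s, IntermediateField.mem_adjoin_simple_self K s⟩
  have hsL : sL ^ 2 = algebraMap K L (a : K) := by
    apply Subtype.ext
    show s ^ 2 = algebraMap K M (a : K)
    exact hs
  have hsL0 : sL ≠ 0 := by
    intro h0
    rw [h0, zero_pow two_ne_zero] at hsL
    exact a.ne_zero ((map_eq_zero (algebraMap K L)).mp hsL.symm)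
  refine ⟨w.valuationOfNeZero (Units.mk0 sL hsL0), ?_⟩
  rw [← WithZero.coe_inj, WithZero.coe_pow, HeightOneSpectrum.valuationOfNeZero_eq,
    HeightOneSpectrum.valuationOfNeZero_eq, hval, ← hsL, map_pow]
  rfl

end gal

end Fermat.Agent.MW
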