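import Fermat.Agent.MW.Kummer
import Fermat.Agent.MW.Unram
import Fermat.Agent.MW.QuadBound
import Fermat.Agent.MW.Final

/-!
# Program MW (S17): weak Mordell–Weil assembled, and S17 modulo the height half (prefix `mwwk_`)

Owner: helper2 (architect of the weak half + final assembly).

* `mwwk_quadBound`  : helper3's arithmetic hypothesis `MwkmQuadBound K S₀` for every number field
  `K ⊆ ℚ̄` and every finite set of primes `S₀` (= helper14's `mwqb_quadBound` fed with helper29's
  `mwun_mem_selmerGroup`, `mwunBad_finite`).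
* `mwwk_weak`       : `J₀(N)(K) / 2 J₀(N)(K)` is finite as soon as `J₀(N)[2] ⊆ J₀(N)(K)`.
* `mwwk_exists`     : every number field `K₀ ⊆ ℚ̄` lies in a number field `K` with
  `J₀(N)(K) / 2 J₀(N)(K)` finite; the set of such `K` is upward closed (`mwwk_weak_of_le`).
* `MwwkHeight N K`  : THE INTERFACE TO THE HEIGHT HALF: a function `h : J₀(N)(ℚ̄) → ℝ` which on
  `J₀(N)(K)` is non-negative, approximately quadratic and Northcott.
* `mwwk_main`       : the frozen S17 conclusion from `∀ K₀, ∃ K ≥ K₀, MwwkHeight N K`.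
-/

set_option autoImplicit false

open ModularCurve AlgebraicCurve

namespace Fermat.Agent.MW

/-- a finite subextension of `ℚ̄ / ℚ` is a number field -/
theorem mwwk_numberField (K : IntermediateField ℚ (AlgebraicClosure ℚ))
    [FiniteDimensional ℚ K] : NumberField K :=
  { to_charZero := inferInstance
    to_finiteDimensional := inferInstance }

/-- **(B)** the compositum of the quadratic extensions of a number field `K` unramified outside
a finite set of primes is a finite extension. -/
theorem mwwk_quadBound (K : IntermediateField ℚ (AlgebraicClosure ℚ)) [FiniteDimensional ℚ K]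
    (S₀ : Finset ℕ) : MwkmQuadBound K S₀ := by
  haveI : NumberField K := mwwk_numberField K
  exact mwqb_quadBound K S₀ (mwunBad K S₀) (mwunBad_finite K S₀)
    (fun a s hs hunr => mwun_mem_selmerGroup K S₀ a s hs hunr)

/-- **Weak Mordell–Weil** for `J₀(N)` over a number field containing the field of definition of
the `2`-torsion. -/
theorem mwwk_weak (N : ℕ) [NeZero N] (K : IntermediateField ℚ (AlgebraicClosure ℚ))
    [FiniteDimensional ℚ K]
    (hK2 : ∀ t : JZero N, 2 • t = 0 → ∀ σ ∈ K.fixingSubgroup, σ • t = t) :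
    (nsmulAddMonoidHom
      (α := ↥(FixedPoints.addSubgroup ↥K.fixingSubgroup (JZero N))) 2).range.FiniteIndex :=
  mwkm_weak N K hK2 (mwwk_quadBound K _)

/-- weak Mordell–Weil over every number field containing a fixed one -/
theorem mwwk_exists (N : ℕ) [NeZero N] :
    ∃ K₁ : IntermediateField ℚ (AlgebraicClosure ℚ), FiniteDimensional ℚ K₁ ∧
      ∀ K : IntermediateField ℚ (AlgebraicClosure ℚ), K₁ ≤ K → FiniteDimensional ℚ K →
        (nsmulAddMonoidHom
          (α := ↥(FixedPoints.addSubgroup ↥K.fixingSubgroup (JZero N))) 2).range.FiniteIndex := by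
  obtain ⟨K₁, hfin, -, hK2⟩ := mwkm_exists_K N
  refine ⟨K₁, hfin, fun K hle hK => ?_⟩
  haveI := hK
  refine mwwk_weak N K (fun t ht σ hσ => hK2 t ht σ ?_)
  exact IntermediateField.fixingSubgroup_le hle hσ

/-- **Interface to the height half.**  A height for `J₀(N)` over the number field `K`:
a real function on `J₀(N)(ℚ̄)` which on `J₀(N)(K)` is non-negative, satisfies the parallelogram
law up to a constant, and has the Northcott property. -/
def MwwkHeight (N : ℕ) (K : IntermediateField ℚ (AlgebraicClosure ℚ)) : Prop :=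
  ∃ (h : JZero N → ℝ) (C : ℝ),
    (∀ x ∈ FixedPoints.addSubgroup ↥K.fixingSubgroup (JZero N), 0 ≤ h x) ∧
    (∀ x ∈ FixedPoints.addSubgroup ↥K.fixingSubgroup (JZero N),
      ∀ y ∈ FixedPoints.addSubgroup ↥K.fixingSubgroup (JZero N),
        |h (x + y) + h (x - y) - 2 * (h x + h y)| ≤ C) ∧
    (∀ B : ℝ, {x | x ∈ FixedPoints.addSubgroup ↥K.fixingSubgroup (JZero N) ∧ h x ≤ B}.Finite)

/-- **S17 modulo the height half**: if arbitrarily large number fields `K ⊆ ℚ̄` carry a height
for `J₀(N)`, then `J₀(N)(ℚ)` is finitely generated. -/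
theorem mwwk_main (N : ℕ) [NeZero N]
    (hH : ∀ K₀ : IntermediateField ℚ (AlgebraicClosure ℚ), FiniteDimensional ℚ K₀ →
      ∃ K : IntermediateField ℚ (AlgebraicClosure ℚ), K₀ ≤ K ∧ FiniteDimensional ℚ K ∧
        MwwkHeight N K) :
    AddGroup.FG ↥(FixedPoints.addSubgroup
      ((AlgebraicClosure ℚ) ≃ₐ[ℚ] (AlgebraicClosure ℚ)) (JZero N)) := by
  obtain ⟨K₁, hK₁, hweak⟩ := mwwk_exists N
  obtain ⟨K, hle, hK, h, C, h0, hpar, hNorth⟩ := hH K₁ hK₁
  exact mwfin_final N K.fixingSubgroup h C h0 hpar hNorth (hweak K hle hK)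

end Fermat.Agent.MW
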